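import Mathlib
import Fermat.Prelude.Def_ModularCurve_ArithmeticGalois
import Fermat.Prelude.Def_ModularCurve_X0ModL

/-!
# S18, package DESC/DICT (helper19): (D0) the bridge between `ℚ̄` and number fields

* `h19_coeffMap_mem_full` (D0a): a ring homomorphism of fields `φ : K →+* K'` maps the modular
  function field `modularFunctionFieldFullC K N` into `modularFunctionFieldFullC K' N`;
* `h19_bar_eq` (D0b): `modularFunctionFieldBar N = modularFunctionFieldFullC ℚ̄ N`;
* `h19_exists_descent` (D0c): every element of `modularFunctionFieldFullC L N` (`L/ℚ` algebraic)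
  comes from `modularFunctionFieldFullC K N` for an intermediate field `K` finite over `ℚ`,
  which can be enlarged at will (`h19_descends_mono`).
-/

set_option autoImplicit false

open HahnSeries IntermediateField ModularCurve

noncomputable section

namespace Fermat.Agent.S18x.Desc.H19

section D0a

variable {K K' : Type*} [Field K] [Field K']

theorem h19_coeffMap_algebraMap (φ : K →+* K') (c : K) :
    coeffMap φ (algebraMap K (LaurentSeries K) c) = algebraMap K' (LaurentSeries K') (φ c) := by
  rw [algebraMap_laurentSeries_eq_single, algebraMap_laurentSeries_eq_single, coeffMap_single]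

/-- **(D0a)** -/
theorem h19_coeffMap_mem_full (φ : K →+* K') (N : ℕ) {x : LaurentSeries K}
    (hx : x ∈ modularFunctionFieldFullC K N) :
    coeffMap φ x ∈ modularFunctionFieldFullC K' N := by
  change x ∈ adjoin K (divisorExpansionsC K N) at hx
  induction hx using IntermediateField.adjoin_induction with
  | mem x hx =>
    obtain ⟨d, hd, hdN, rfl⟩ := hx
    rw [coeffMap_qExpand, coeffMap_jqModC]
    exact jqModCd_mem_full K' N hdN
  | algebraMap r =>
    rw [h19_coeffMap_algebraMap]
    exact IntermediateField.algebraMap_mem _ _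
  | add x y _ _ hx hy => rw [map_add]; exact add_mem hx hy
  | inv x _ hx => rw [map_inv₀]; exact inv_mem hx
  | mul x y _ _ hx hy => rw [map_mul]; exact mul_mem hx hy

theorem h19_coeffMap_injective (φ : K →+* K') : Function.Injective (coeffMap φ) := by
  intro x y h
  ext n
  have := congrArg (fun z : LaurentSeries K' => z.coeff n) h
  simp only [coeffMap_coeff] at this
  exact φ.injective this

end D0a

section D0b

variable (L : Type*) [Field L] [Algebra ℚ L] (N : ℕ)

/-- **(D0b)** the base change of the rational modular function field is the modular function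
field over `L`. -/
theorem h19_laurentBaseChange_eq :
    laurentBaseChange L (modularFunctionFieldFull N) = modularFunctionFieldFullC L N := by
  apply le_antisymm
  · rw [laurentBaseChange, adjoin_le_iff]
    rintro _ ⟨y, hy, rfl⟩
    have hy' : y ∈ modularFunctionFieldFullC ℚ N := hy
    exact h19_coeffMap_mem_full (algebraMap ℚ L) N hy'
  · rw [modularFunctionFieldFullC, adjoin_le_iff]
    rintro _ ⟨d, hd, hdN, rfl⟩
    have h1 : qExpand ℚ d (jqModC ℚ) ∈ modularFunctionFieldFull N :=
      jqModCd_mem_full ℚ N hdN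
    have h2 := coeffEmb_mem_laurentBaseChange L h1
    rwa [coeffEmb, coeffMap_qExpand, coeffMap_jqModC] at h2

theorem h19_bar_eq :
    modularFunctionFieldBar N = modularFunctionFieldFullC (AlgebraicClosure ℚ) N :=
  h19_laurentBaseChange_eq (AlgebraicClosure ℚ) N

end D0b

section D0c

variable {L : Type*} [Field L] [Algebra ℚ L] (N : ℕ)

/-- `x ∈ L((q))` descends to level-`N` modular functions over the intermediate field `K`. -/
def H19Descends (K : IntermediateField ℚ L) (x : LaurentSeries L) : Prop :=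
  ∃ x' : LaurentSeries K, x' ∈ modularFunctionFieldFullC K N ∧
    coeffMap (algebraMap K L) x' = x

variable {N}

/-- The inclusion of intermediate fields as a ring homomorphism. -/
def h19_incl {K K' : IntermediateField ℚ L} (h : K ≤ K') : ↥K →+* ↥K' where
  toFun x := ⟨(x : L), h x.2⟩
  map_one' := rfl
  map_mul' _ _ := rfl
  map_zero' := rfl
  map_add' _ _ := rfl

@[simp]
theorem h19_coe_incl {K K' : IntermediateField ℚ L} (h : K ≤ K') (x : K) :
    ((h19_incl h x : K') : L) = (x : L) := rfl

theorem h19_descends_mono {K K' : IntermediateField ℚ L} (h : K ≤ K') {x : LaurentSeries L}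
    (hx : H19Descends N K x) : H19Descends N K' x := by
  obtain ⟨x', hx', rfl⟩ := hx
  refine ⟨coeffMap (h19_incl h) x', h19_coeffMap_mem_full _ N hx', ?_⟩
  rw [coeffMap_coeffMap]
  exact coeffMap_congr (RingHom.ext fun c => rfl) x'

theorem h19_descends_mem {K : IntermediateField ℚ L} {x : LaurentSeries L}
    (hx : H19Descends N K x) : x ∈ modularFunctionFieldFullC L N := by
  obtain ⟨x', hx', rfl⟩ := hx
  exact h19_coeffMap_mem_full _ N hx'

variable (N)

/-- **(D0c)** every modular function over `L` (algebraic over `ℚ`) descends to an intermediate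
field which is finite over `ℚ`. -/
theorem h19_exists_descent [Algebra.IsAlgebraic ℚ L] {x : LaurentSeries L}
    (hx : x ∈ modularFunctionFieldFullC L N) :
    ∃ K : IntermediateField ℚ L, FiniteDimensional ℚ K ∧ H19Descends N K x := by
  change x ∈ adjoin L (divisorExpansionsC L N) at hx
  induction hx using IntermediateField.adjoin_induction with
  | mem x hx =>
    obtain ⟨d, hd, hdN, rfl⟩ := hx
    refine ⟨⊥, inferInstance, qExpand (↥(⊥ : IntermediateField ℚ L)) d (jqModC _),
      jqModCd_mem_full _ N hdN, ?_⟩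
    rw [coeffMap_qExpand, coeffMap_jqModC]
  | algebraMap c =>
    have hc : IsIntegral ℚ c := (Algebra.IsAlgebraic.isAlgebraic c).isIntegral
    refine ⟨ℚ⟮c⟯, IntermediateField.adjoin.finiteDimensional hc,
      algebraMap _ _ (⟨c, IntermediateField.mem_adjoin_simple_self ℚ c⟩ : ℚ⟮c⟯),
      IntermediateField.algebraMap_mem _ _, ?_⟩
    rw [h19_coeffMap_algebraMap]
    rfl
  | add x y _ _ hx hy =>
    obtain ⟨K₁, hK₁, hx₁⟩ := hx
    obtain ⟨K₂, hK₂, hx₂⟩ := hy
    haveI := hK₁
    haveI := hK₂
    refine ⟨K₁ ⊔ K₂, IntermediateField.finiteDimensional_sup K₁ K₂, ?_⟩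
    obtain ⟨a, ha, rfl⟩ := h19_descends_mono (le_sup_left : K₁ ≤ K₁ ⊔ K₂) hx₁
    obtain ⟨b, hb, rfl⟩ := h19_descends_mono (le_sup_right : K₂ ≤ K₁ ⊔ K₂) hx₂
    exact ⟨a + b, add_mem ha hb, map_add _ _ _⟩
  | inv x _ hx =>
    obtain ⟨K₁, hK₁, a, ha, rfl⟩ := hx
    exact ⟨K₁, hK₁, a⁻¹, inv_mem ha, map_inv₀ _ _⟩
  | mul x y _ _ hx hy =>
    obtain ⟨K₁, hK₁, hx₁⟩ := hx
    obtain ⟨K₂, hK₂, hx₂⟩ := hy
    haveI := hK₁
    haveI := hK₂
    refine ⟨K₁ ⊔ K₂, IntermediateField.finiteDimensional_sup K₁ K₂, ?_⟩
    obtain ⟨a, ha, rfl⟩ := h19_descends_mono (le_sup_left : K₁ ≤ K₁ ⊔ K₂) hx₁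
    obtain ⟨b, hb, rfl⟩ := h19_descends_mono (le_sup_right : K₂ ≤ K₁ ⊔ K₂) hx₂
    exact ⟨a * b, mul_mem ha hb, map_mul _ _ _⟩

end D0c

end Fermat.Agent.S18x.Desc.H19
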