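import Fermat.Agent.S18x.Desc.H19_Level
import Fermat.Agent.S18x.Desc.H19_Bridge
import Fermat.Agent.S18x.Dict.H20_GaussDefs
import Fermat.Agent.S18x.E.H29_StConst
import Fermat.Agent.S18x.E.H12_Div

/-!
# S18, package DESC (helper19): the level descent at ONE exponent `m`, inputs discharged

For `N ∣ M` (any levels) and ONE exponent `m ≠ 0`:

* `H19KummerAt A N m` : the body of `Asm.StKummer A N ℓ` at the exponent `m` (no `ℓ`);
* `H19KumVAt A N m` : the `1`-unit form (`f ∈ F_N`, `f` in the Gauss ring of `A` with reduction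
  `1`, `m ∣ ord_P f` for all `P`  ⇒  `f` is an `m`-th power in `F_N`);
* `H19DescVAt A N M m` : **the descent instance** (`f ∈ F_N` a `1`-unit, `u ∈ F_M`, `u ^ m = f`
  ⇒ `u ∈ F_N`);
* `h19_kummerAt_of_dvd`, `h19_kumVAt_of_dvd` : Kummer at level `M` + descent instance ⇒ Kummer at
  level `N`, with ALL other inputs discharged (`F_N ≤ F_M`, integrality, restriction of places,
  `StDiv`, constants).
-/

set_option autoImplicit false
set_option linter.style.haveILetI false
set_option synthInstance.maxHeartbeats 400000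
set_option maxHeartbeats 1000000

open HahnSeries IntermediateField AlgebraicCurve ModularCurve

noncomputable section

namespace Fermat.Agent.S18x.Desc.H19

section Defs

variable (A : ValuationSubring (AlgebraicClosure ℚ)) (N M : ℕ) [NeZero N] [NeZero M]

/-- The body of `Asm.StKummer A N ℓ` at ONE exponent `m`. -/
def H19KummerAt (m : ℕ) : Prop :=
  ∀ (Y₁ Y₂ : LaurentSeries A)
    (h₁ : coeffMap A.subtype Y₁ ∈ modularFunctionFieldBar N)
    (h₂ : coeffMap A.subtype Y₂ ∈ modularFunctionFieldBar N),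
    coeffMap (IsLocalRing.residue A) Y₁ ∈
        modularFunctionFieldFullC (IsLocalRing.ResidueField A) N →
    coeffMap (IsLocalRing.residue A) Y₁ = coeffMap (IsLocalRing.residue A) Y₂ →
    coeffMap (IsLocalRing.residue A) Y₁ ≠ 0 →
    ∀ D : Divisor (AlgebraicClosure ℚ) (modularFunctionFieldBar N),
      (∀ P : Place (AlgebraicClosure ℚ) (modularFunctionFieldBar N),
        (m : ℤ) * D P =
          P.ord (⟨coeffMap A.subtype Y₁, h₁⟩ : modularFunctionFieldBar N) -
            P.ord (⟨coeffMap A.subtype Y₂, h₂⟩ : modularFunctionFieldBar N)) →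
      Divisor.IsPrincipal D

/-- The body of `StDescInst A N M ℓ` at ONE exponent `m`. -/
def H19DescInstAt (m : ℕ) : Prop :=
  ∀ (Y₁ Y₂ : LaurentSeries A),
    coeffMap A.subtype Y₁ ∈ modularFunctionFieldBar N →
    coeffMap A.subtype Y₂ ∈ modularFunctionFieldBar N →
    coeffMap (IsLocalRing.residue A) Y₁ = coeffMap (IsLocalRing.residue A) Y₂ →
    coeffMap (IsLocalRing.residue A) Y₁ ≠ 0 →
    ∀ u : LaurentSeries (AlgebraicClosure ℚ), u ∈ modularFunctionFieldBar M →
      u ^ m * coeffMap A.subtype Y₂ = coeffMap A.subtype Y₁ → u ∈ modularFunctionFieldBar N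

/-- The `1`-unit form of the Kummer statement at ONE exponent `m`. -/
def H19KumVAt (m : ℕ) : Prop :=
  ∀ (f : modularFunctionFieldBar N)
    (hf : (f : LaurentSeries (AlgebraicClosure ℚ)) ∈ Dict.H20.gaussRing A),
    Dict.H20.gaussRed A ⟨(f : LaurentSeries (AlgebraicClosure ℚ)), hf⟩ = 1 →
    (∀ P : Place (AlgebraicClosure ℚ) (modularFunctionFieldBar N), (m : ℤ) ∣ P.ord f) →
    ∃ u : modularFunctionFieldBar N, u ^ m = f

/-- **The descent instance** at ONE exponent `m`: an `m`-th root in `F_M` of a `1`-unit of `F_N`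
is in `F_N`. -/
def H19DescVAt (m : ℕ) : Prop :=
  ∀ (f : LaurentSeries (AlgebraicClosure ℚ)), f ∈ modularFunctionFieldBar N →
    ∀ hf : f ∈ Dict.H20.gaussRing A, Dict.H20.gaussRed A ⟨f, hf⟩ = 1 →
    ∀ u : LaurentSeries (AlgebraicClosure ℚ), u ∈ modularFunctionFieldBar M →
      u ^ m = f → u ∈ modularFunctionFieldBar N

omit [NeZero N] in
theorem h19_stKummer_iff_forall_at (ℓ : ℕ) :
    Asm.StKummer A N ℓ ↔ ∀ m : ℕ, ¬ ℓ ∣ m → H19KummerAt A N m := Iff.rfl

omit [NeZero N] [NeZero M] in
theorem h19_stDescInst_iff_forall_at (ℓ : ℕ) :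
    StDescInst A N M ℓ ↔ ∀ m : ℕ, ¬ ℓ ∣ m → H19DescInstAt A N M m := Iff.rfl

end Defs

section Inputs

variable {N M : ℕ} [NeZero N] [NeZero M]

/-- `F_N ≤ F_M` over `ℚ̄` for `N ∣ M`. -/
theorem h19_bar_le (h : N ∣ M) : modularFunctionFieldBar N ≤ modularFunctionFieldBar M := by
  rw [h19_bar_eq, h19_bar_eq]
  exact full_degeneracyC_le (AlgebraicClosure ℚ) h

/-- Every element of `k(j_d : d ∣ M)` is algebraic over `k(j_d : d ∣ N)`, any field `k`. -/
theorem h19_isAlgebraic_full (k : Type) [Field k] (N M : ℕ) [NeZero N] [NeZero M]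
    (x : LaurentSeries k) (hx : x ∈ modularFunctionFieldFullC k M) :
    IsAlgebraic (modularFunctionFieldFullC k N).toSubalgebra x := by
  have hfd := E.H29.finDimC k M
  have h1 : IsAlgebraic (IntermediateField.adjoin k {S28.Asm.jbFull k M})
      (⟨x, hx⟩ : ↥(modularFunctionFieldFullC k M)) :=
    Algebra.IsAlgebraic.isAlgebraic _
  obtain ⟨p, hp0, hp⟩ := h1
  -- the ring homomorphism `k(j) → F_N`
  have hmem : ∀ c : ↥(IntermediateField.adjoin k {S28.Asm.jbFull k M}),
      ((c : ↥(modularFunctionFieldFullC k M)) : LaurentSeries k) ∈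
        modularFunctionFieldFullC k N := by
    intro c
    have h2 : (IntermediateField.adjoin k {S28.Asm.jbFull k M}).map
        (modularFunctionFieldFullC k M).val = IntermediateField.adjoin k
          {((S28.Asm.jbFull k M : ↥(modularFunctionFieldFullC k M)) : LaurentSeries k)} := by
      rw [IntermediateField.adjoin_map, Set.image_singleton]
      rfl
    have h3 : ((c : ↥(modularFunctionFieldFullC k M)) : LaurentSeries k) ∈
        (IntermediateField.adjoin k {S28.Asm.jbFull k M}).map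
          (modularFunctionFieldFullC k M).val := ⟨_, c.2, rfl⟩
    rw [h2] at h3
    have h4 : IntermediateField.adjoin k
        {((S28.Asm.jbFull k M : ↥(modularFunctionFieldFullC k M)) : LaurentSeries k)} ≤
        modularFunctionFieldFullC k N := by
      rw [adjoin_le_iff]
      rintro y rfl
      exact jqModC_mem_full k N
    exact h4 h3
  let e : ↥(IntermediateField.adjoin k {S28.Asm.jbFull k M}) →+*
      ↥(modularFunctionFieldFullC k N).toSubalgebra :=
    { toFun := fun c => ⟨((c : ↥(modularFunctionFieldFullC k M)) : LaurentSeries k), hmem c⟩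
      map_one' := rfl
      map_mul' := fun _ _ => rfl
      map_zero' := rfl
      map_add' := fun _ _ => rfl }
  refine ⟨p.map e, ?_, ?_⟩
  · rw [Ne, Polynomial.map_eq_zero_iff e.injective]
    exact hp0
  · have h5 := congrArg ((modularFunctionFieldFullC k M).val) hp
    rw [Polynomial.aeval_def, Polynomial.eval₂_eq_sum_range, map_sum, map_zero] at h5
    rw [Polynomial.aeval_def, Polynomial.eval₂_map, Polynomial.eval₂_eq_sum_range, ← h5]
    refine Finset.sum_congr rfl fun i _ => ?_
    rw [map_mul, map_pow]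
    rfl

omit [NeZero N] [NeZero M] in
/-- Transport of integrality along equalities of intermediate fields. -/
theorem h19_isIntegral_congr {K E : Type*} [Field K] [Field E] [Algebra K E]
    {F₁ F₂ G₁ G₂ : IntermediateField K E} (e₁ : F₁ = G₁) (e₂ : F₂ = G₂) (h : F₁ ≤ F₂)
    (h' : G₁ ≤ G₂)
    (H : letI := (IntermediateField.inclusion h').toRingHom.toAlgebra
      Algebra.IsIntegral G₁ G₂) :
    letI := (IntermediateField.inclusion h).toRingHom.toAlgebra
    Algebra.IsIntegral F₁ F₂ := by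
  subst e₁ e₂
  exact H

/-- `k(j_d : d ∣ M)` is integral over `k(j_d : d ∣ N)` (inclusion algebra), any field `k`. -/
theorem h19_full_isIntegral (k : Type) [Field k] (h : N ∣ M) :
    letI := (IntermediateField.inclusion (full_degeneracyC_le k h)).toRingHom.toAlgebra
    Algebra.IsIntegral ↥(modularFunctionFieldFullC k N) ↥(modularFunctionFieldFullC k M) := by
  letI alg : Algebra ↥(modularFunctionFieldFullC k N) ↥(modularFunctionFieldFullC k M) :=
    (IntermediateField.inclusion (full_degeneracyC_le k h)).toRingHom.toAlgebra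
  haveI : IsScalarTower ↥(modularFunctionFieldFullC k N) ↥(modularFunctionFieldFullC k M)
      (LaurentSeries k) := IsScalarTower.of_algebraMap_eq fun c => rfl
  refine ⟨fun x => ?_⟩
  have h1 : IsAlgebraic ↥(modularFunctionFieldFullC k N) (x : LaurentSeries k) :=
    h19_isAlgebraic_full k N M x x.2
  have h2 : IsIntegral ↥(modularFunctionFieldFullC k N)
      (algebraMap ↥(modularFunctionFieldFullC k M) (LaurentSeries k) x) := h1.isIntegral
  exact (isIntegral_algebraMap_iff
    (algebraMap ↥(modularFunctionFieldFullC k M) (LaurentSeries k)).injective).1 h2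

/-- `F_M` is integral over `F_N` (inclusion algebra) over `ℚ̄`, `N ∣ M`. -/
theorem h19_bar_isIntegral (h : N ∣ M) :
    letI := (IntermediateField.inclusion (h19_bar_le h)).toRingHom.toAlgebra
    Algebra.IsIntegral (modularFunctionFieldBar N) (modularFunctionFieldBar M) :=
  h19_isIntegral_congr (h19_bar_eq N) (h19_bar_eq M) (h19_bar_le h)
    (full_degeneracyC_le (AlgebraicClosure ℚ) h) (h19_full_isIntegral (AlgebraicClosure ℚ) h)

omit [NeZero N] [NeZero M] in
theorem h19_const_congr {K E : Type*} [Field K] [Field E] [Algebra K E]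
    {F G : IntermediateField K E} (e : F = G)
    (H : ∀ g : G, g ≠ 0 → (∀ Q : Place K G, Q.ord g = 0) → ∃ c : K, algebraMap K G c = g) :
    ∀ g : F, g ≠ 0 → (∀ Q : Place K F, Q.ord g = 0) → ∃ c : K, algebraMap K F c = g := by
  subst e
  exact H

omit [NeZero N] in
/-- **[CONST0]**, hypothesis-free. -/
theorem h19_stConst0 (M : ℕ) [NeZero M] : StConst0 M :=
  h19_const_congr (h19_bar_eq M) fun g _ hg =>
    E.H29.const_of_forall_ord_eq_zero (AlgebraicClosure ℚ) M g hg

omit [NeZero N] [NeZero M] in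
/-- **Restriction of places**: divisibility of all orders at level `N` implies divisibility of
all orders at level `M`. -/
theorem h19_dvd_ord_of_level
    (hNM : modularFunctionFieldBar N ≤ modularFunctionFieldBar M)
    (hint : letI := (IntermediateField.inclusion hNM).toRingHom.toAlgebra
      Algebra.IsIntegral (modularFunctionFieldBar N) (modularFunctionFieldBar M))
    (m : ℤ) (f : LaurentSeries (AlgebraicClosure ℚ)) (hf : f ∈ modularFunctionFieldBar N)
    (hdiv : ∀ P : Place (AlgebraicClosure ℚ) (modularFunctionFieldBar N),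
      m ∣ P.ord (⟨f, hf⟩ : modularFunctionFieldBar N))
    (Q : Place (AlgebraicClosure ℚ) (modularFunctionFieldBar M)) :
    m ∣ Q.ord (⟨f, hNM hf⟩ : modularFunctionFieldBar M) := by
  letI alg : Algebra (modularFunctionFieldBar N) (modularFunctionFieldBar M) :=
    (IntermediateField.inclusion hNM).toRingHom.toAlgebra
  haveI : IsScalarTower (AlgebraicClosure ℚ) (modularFunctionFieldBar N)
      (modularFunctionFieldBar M) :=
    IsScalarTower.of_algebraMap_eq fun c => rfl
  haveI : Algebra.IsIntegral (modularFunctionFieldBar N) (modularFunctionFieldBar M) := hint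
  have hmap : algebraMap (modularFunctionFieldBar N) (modularFunctionFieldBar M) ⟨f, hf⟩ =
      ⟨f, hNM hf⟩ := rfl
  rw [← hmap, Q.ord_restrict (⟨f, hf⟩ : modularFunctionFieldBar N)]
  exact Dvd.dvd.mul_left (hdiv (Q.restrict (modularFunctionFieldBar N))) _

end Inputs

section Descent

variable {A : ValuationSubring (AlgebraicClosure ℚ)} {N M : ℕ} [NeZero N] [NeZero M]

omit [NeZero N] [NeZero M] in
/-- **Level descent, `1`-unit form, one exponent** (generic inputs). -/
theorem h19_kumVAt_of_level (m : ℕ)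
    (hNM : modularFunctionFieldBar N ≤ modularFunctionFieldBar M)
    (hint : letI := (IntermediateField.inclusion hNM).toRingHom.toAlgebra
      Algebra.IsIntegral (modularFunctionFieldBar N) (modularFunctionFieldBar M))
    (hK : H19KumVAt A M m) (hD : H19DescVAt A N M m) : H19KumVAt A N m := by
  intro f hf hred hdiv
  obtain ⟨u, hu⟩ := hK ⟨(f : LaurentSeries (AlgebraicClosure ℚ)), hNM f.2⟩ hf hred
    (fun Q => h19_dvd_ord_of_level hNM hint (m : ℤ) _ f.2 hdiv Q)
  have hu' : (u : LaurentSeries (AlgebraicClosure ℚ)) ^ m = f := by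
    have := congrArg Subtype.val hu
    simpa using this
  have hmem := hD _ f.2 hf hred _ u.2 hu'
  exact ⟨⟨_, hmem⟩, Subtype.ext hu'⟩

/-- **Level descent, `1`-unit form, one exponent**: for `N ∣ M`. -/
theorem h19_kumVAt_of_dvd (h : N ∣ M) (m : ℕ)
    (hK : H19KumVAt A M m) (hD : H19DescVAt A N M m) : H19KumVAt A N m :=
  h19_kumVAt_of_level m (h19_bar_le h) (h19_bar_isIntegral h) hK hD

omit [NeZero N] [NeZero M] in
/-- The descent instance in `1`-unit form implies the one in the `Y₁ / Y₂` form. -/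
theorem h19_descInstAt_of_descVAt (m : ℕ) (hD : H19DescVAt A N M m) :
    H19DescInstAt A N M m := by
  intro Y₁ Y₂ h₁ h₂ hred hne u hu hrel
  have hne₂ : coeffMap (IsLocalRing.residue A) Y₂ ≠ 0 := hred ▸ hne
  have hY₂ : coeffMap A.subtype Y₂ ≠ 0 := h19_ne_zero_of_residue_ne_zero A hne₂
  have hfN : u ^ m ∈ modularFunctionFieldBar N := by
    have h3 : u ^ m = coeffMap A.subtype Y₁ / coeffMap A.subtype Y₂ := by
      rw [eq_div_iff hY₂]
      exact hrel
    rw [h3]
    exact div_mem h₁ h₂
  have hfV : u ^ m ∈ Dict.H20.gaussRing A := ⟨Y₁, Y₂, hne₂, hrel⟩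
  have hfred : Dict.H20.gaussRed A ⟨u ^ m, hfV⟩ = 1 := by
    rw [Dict.H20.gaussRed_eq A ⟨u ^ m, hfV⟩ Y₁ Y₂ hne₂ hrel, hred]
    exact div_self hne₂
  exact hD (u ^ m) hfN hfV hfred u hu rfl

omit [NeZero N] [NeZero M] in
/-- **Level descent, `StKummer` form, one exponent** (generic inputs). -/
theorem h19_kummerAt_of_level (m : ℕ) (hm0 : m ≠ 0)
    (hNM : modularFunctionFieldBar N ≤ modularFunctionFieldBar M)
    (hint : letI := (IntermediateField.inclusion hNM).toRingHom.toAlgebra
      Algebra.IsIntegral (modularFunctionFieldBar N) (modularFunctionFieldBar M))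
    (hk : modularFunctionFieldFullC (IsLocalRing.ResidueField A) N ≤
      modularFunctionFieldFullC (IsLocalRing.ResidueField A) M)
    (hK : H19KummerAt A M m) (hDiv : Asm.StDiv M) (hC : StConst0 M)
    (hD : H19DescInstAt A N M m) : H19KummerAt A N m := by
  intro Y₁ Y₂ h₁ h₂ hk₁ hred hne D hDm
  have hmZ : (m : ℤ) ≠ 0 := by exact_mod_cast hm0
  have hne₂ : coeffMap (IsLocalRing.residue A) Y₂ ≠ 0 := hred ▸ hne
  have hY₁ : coeffMap A.subtype Y₁ ≠ 0 := h19_ne_zero_of_residue_ne_zero A hne
  have hY₂ : coeffMap A.subtype Y₂ ≠ 0 := h19_ne_zero_of_residue_ne_zero A hne₂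
  letI alg : Algebra (modularFunctionFieldBar N) (modularFunctionFieldBar M) :=
    (IntermediateField.inclusion hNM).toRingHom.toAlgebra
  haveI : IsScalarTower (AlgebraicClosure ℚ) (modularFunctionFieldBar N)
      (modularFunctionFieldBar M) :=
    IsScalarTower.of_algebraMap_eq fun c => rfl
  haveI : Algebra.IsIntegral (modularFunctionFieldBar N) (modularFunctionFieldBar M) := hint
  -- the elements
  set y₁ : modularFunctionFieldBar N := ⟨coeffMap A.subtype Y₁, h₁⟩ with hy₁
  set y₂ : modularFunctionFieldBar N := ⟨coeffMap A.subtype Y₂, h₂⟩ with hy₂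
  set z₁ : modularFunctionFieldBar M := ⟨coeffMap A.subtype Y₁, hNM h₁⟩ with hz₁
  set z₂ : modularFunctionFieldBar M := ⟨coeffMap A.subtype Y₂, hNM h₂⟩ with hz₂
  have hy₁0 : y₁ ≠ 0 := fun h => hY₁ (congrArg Subtype.val h)
  have hy₂0 : y₂ ≠ 0 := fun h => hY₂ (congrArg Subtype.val h)
  have hz₁0 : z₁ ≠ 0 := fun h => hY₁ (congrArg Subtype.val h)
  have hz₂0 : z₂ ≠ 0 := fun h => hY₂ (congrArg Subtype.val h)
  have hmap₁ : algebraMap (modularFunctionFieldBar N) (modularFunctionFieldBar M) y₁ = z₁ := rfl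
  have hmap₂ : algebraMap (modularFunctionFieldBar N) (modularFunctionFieldBar M) y₂ = z₂ := rfl
  -- orders at level `M`
  have hord : ∀ Q : Place (AlgebraicClosure ℚ) (modularFunctionFieldBar M),
      Q.ord z₁ - Q.ord z₂ =
        (m : ℤ) * ((Place.ramificationIndex (F := modularFunctionFieldBar N) Q : ℤ) *
          D (Q.restrict (modularFunctionFieldBar N))) := by
    intro Q
    rw [← hmap₁, ← hmap₂, Q.ord_restrict y₁, Q.ord_restrict y₂, ← mul_sub,
      ← hDm (Q.restrict (modularFunctionFieldBar N))]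
    ring
  -- the divisor of `z₁ / z₂`
  obtain ⟨E, hE⟩ := hDiv (z₁ / z₂) (div_ne_zero hz₁0 hz₂0)
  have hE' : ∀ Q, E Q = Q.ord z₁ - Q.ord z₂ := by
    intro Q
    rw [hE Q, div_eq_mul_inv, Q.ord_mul hz₁0 (inv_ne_zero hz₂0), Q.ord_inv]
    ring
  set DM : Divisor (AlgebraicClosure ℚ) (modularFunctionFieldBar M) :=
    E.mapRange (fun z => z / (m : ℤ)) (Int.zero_ediv _) with hDM
  have hDM' : ∀ Q, (m : ℤ) * DM Q = Q.ord z₁ - Q.ord z₂ := by
    intro Q
    rw [hDM, Finsupp.mapRange_apply, hE' Q, hord Q, Int.mul_ediv_cancel_left _ hmZ]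
  -- apply the Kummer statement at level `M`
  obtain ⟨u, hu0, hu⟩ := hK Y₁ Y₂ (hNM h₁) (hNM h₂) (hk hk₁) hred hne DM hDM'
  -- `u ^ m * z₂ / z₁` is a constant
  set g : modularFunctionFieldBar M := u ^ m * z₂ / z₁ with hg
  have hg0 : g ≠ 0 := div_ne_zero (mul_ne_zero (pow_ne_zero _ hu0) hz₂0) hz₁0
  have hgord : ∀ Q : Place (AlgebraicClosure ℚ) (modularFunctionFieldBar M), Q.ord g = 0 := by
    intro Q
    rw [hg, div_eq_mul_inv, Q.ord_mul (mul_ne_zero (pow_ne_zero _ hu0) hz₂0) (inv_ne_zero hz₁0),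
      Q.ord_mul (pow_ne_zero _ hu0) hz₂0, Q.ord_inv, h19_ord_pow, ← hu Q]
    have := hDM' Q
    linarith
  obtain ⟨c, hc⟩ := hC g hg0 hgord
  have hc0 : c ≠ 0 := by
    rintro rfl
    rw [map_zero] at hc
    exact hg0 hc.symm
  obtain ⟨c', hc'⟩ := IsAlgClosed.exists_pow_nat_eq c (Nat.pos_of_ne_zero hm0)
  have hc'0 : c' ≠ 0 := by
    rintro rfl
    rw [zero_pow hm0] at hc'
    exact hc0 hc'.symm
  set a : modularFunctionFieldBar M :=
    algebraMap (AlgebraicClosure ℚ) (modularFunctionFieldBar M) c' with ha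
  have ha0 : a ≠ 0 := by
    rw [ha]
    exact (map_ne_zero _).2 hc'0
  have ham : a ^ m = g := by rw [ha, ← map_pow, hc', hc]
  set u' : modularFunctionFieldBar M := u / a with hu'
  have hu'0 : u' ≠ 0 := div_ne_zero hu0 ha0
  have hrel : u' ^ m * z₂ = z₁ := by
    rw [hu', div_pow, ham, hg]
    field_simp
  have hrel' : (u' : LaurentSeries (AlgebraicClosure ℚ)) ^ m * coeffMap A.subtype Y₂ =
      coeffMap A.subtype Y₁ := by
    have := congrArg Subtype.val hrel
    simpa using this
  have hmem : (u' : LaurentSeries (AlgebraicClosure ℚ)) ∈ modularFunctionFieldBar N :=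
    hD Y₁ Y₂ h₁ h₂ hred hne (u' : LaurentSeries (AlgebraicClosure ℚ)) u'.2 hrel'
  -- conclude at level `N`
  set w : modularFunctionFieldBar N := ⟨(u' : LaurentSeries (AlgebraicClosure ℚ)), hmem⟩ with hw
  have hw0 : w ≠ 0 := by
    intro h
    apply hu'0
    apply Subtype.ext
    have h' : (w : LaurentSeries (AlgebraicClosure ℚ)) = 0 := by rw [h]; rfl
    exact h'
  have hwrel : w ^ m * y₂ = y₁ := by
    apply Subtype.ext
    simpa using hrel'
  refine ⟨w, hw0, fun P => ?_⟩
  have h1 : P.ord y₁ = (m : ℤ) * P.ord w + P.ord y₂ := by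
    rw [← hwrel, P.ord_mul (pow_ne_zero _ hw0) hy₂0, h19_ord_pow]
  have h2 := hDm P
  have h3 : (m : ℤ) * D P = (m : ℤ) * P.ord w := by
    rw [h2, h1]; ring
  exact mul_left_cancel₀ hmZ h3

/-- **Level descent, `StKummer` form, one exponent `m ≠ 0`, for `N ∣ M`**: all inputs except
the Kummer statement at level `M` and the descent instance are discharged. -/
theorem h19_kummerAt_of_dvd (h : N ∣ M) (m : ℕ) (hm0 : m ≠ 0)
    (hK : H19KummerAt A M m) (hD : H19DescVAt A N M m) : H19KummerAt A N m :=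
  h19_kummerAt_of_level m hm0 (h19_bar_le h) (h19_bar_isIntegral h)
    (full_degeneracyC_le (IsLocalRing.ResidueField A) h) hK (E.H12.stDiv M) (h19_stConst0 M)
    (h19_descInstAt_of_descVAt m hD)

/-- **Level descent of `Asm.StKummer`, for `N ∣ M`**. -/
theorem h19_stKummer_of_dvd (h : N ∣ M) (ℓ : ℕ)
    (hK : Asm.StKummer A M ℓ) (hD : ∀ m : ℕ, ¬ ℓ ∣ m → H19DescVAt A N M m) :
    Asm.StKummer A N ℓ := fun m hm =>
  h19_kummerAt_of_dvd h m (fun h0 => hm (h0 ▸ dvd_zero ℓ)) (hK m hm) (hD m hm)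

end Descent

end Fermat.Agent.S18x.Desc.H19
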