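import Fermat.Agent.S18x.Desc.H19_InstK
import Fermat.Agent.S18x.Desc.H19_LevelAt
import Fermat.Agent.S18x.Dict.H22_GaussDescAbs
import Fermat.Agent.S18x.Dict.H23_Dvr
import Fermat.Agent.S18x.Kum.Defs

/-!
# S18, package DESC (helper19): the level descent of the Kummer statement, HYPOTHESIS-FREE

`A : ValuationSubring ℚ̄` lying over the prime `ℓ`, `N ∣ M`, `ℓ ∤ M`, `ℓ ∤ m`.

* `h19_descVAt : H19DescVAt A N M m` - the descent instance over `ℚ̄`: an `m`-th root in `F_M`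
  of a `1`-unit `f ∈ F_N` (Gauss ring of `A`, Gauss reduction `1`) lies in `F_N`.
  Proof: descend `f`, `u` to a number field `K ⊆ ℚ̄` (`h19_exists_descent`), compare the Gauss
  rings of `A` and `O = A ∩ K` (helper22 (GD1)), apply `h19_instK` over the DVR `O` (helper23).
* **`h19_level`** : `Kum.StKumVAt A M m → Kum.StKumVAt A N m` (the LEVEL step of the final chain),
  `h19_level_kummerAt` : the same for `Kum.StKummerAt`, `h19_level_prime` for `Kum.StKumVPrime`.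
-/

set_option autoImplicit false
set_option linter.style.haveILetI false
set_option synthInstance.maxHeartbeats 400000
set_option maxHeartbeats 1000000

open HahnSeries IntermediateField AlgebraicCurve ModularCurve
open Fermat.Agent.S18x.Dict.H20 Fermat.Agent.S18x.Dict.H22 Fermat.Agent.S18x.Dict.H23

noncomputable section

namespace Fermat.Agent.S18x.Desc.H19

local notation "Lbar" => AlgebraicClosure ℚ

variable (A : ValuationSubring (AlgebraicClosure ℚ)) {ℓ : ℕ} {N M : ℕ} [NeZero N] [NeZero M]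

/-- **The descent instance over `ℚ̄`, hypothesis-free.** -/
theorem h19_descVAt (hℓ : ℓ.Prime) (hA : A.LiesOverPrime ℓ) (hNM : N ∣ M) (hℓM : ¬ ℓ ∣ M)
    (m : ℕ) (hm : ¬ ℓ ∣ m) : H19DescVAt A N M m := by
  intro f hfN hfV hred u hu hum
  haveI : Fact ℓ.Prime := ⟨hℓ⟩
  have hm0 : m ≠ 0 := fun h0 => hm (h0 ▸ dvd_zero ℓ)
  have hfN' : f ∈ modularFunctionFieldFullC Lbar N := by rw [← h19_bar_eq]; exact hfN
  have hu' : u ∈ modularFunctionFieldFullC Lbar M := by rw [← h19_bar_eq]; exact hu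
  obtain ⟨K₁, hK₁, hf₁⟩ :=
    @h19_exists_descent Lbar _ _ N (AlgebraicClosure.isAlgebraic ℚ) _ hfN'
  obtain ⟨K₂, hK₂, hu₂⟩ :=
    @h19_exists_descent Lbar _ _ M (AlgebraicClosure.isAlgebraic ℚ) _ hu'
  haveI := hK₁
  haveI := hK₂
  haveI hK : FiniteDimensional ℚ ↥(K₁ ⊔ K₂) := IntermediateField.finiteDimensional_sup K₁ K₂
  obtain ⟨f', hf'N, hff⟩ := h19_descends_mono (le_sup_left : K₁ ≤ K₁ ⊔ K₂) hf₁
  obtain ⟨u', hu'M, huu⟩ := h19_descends_mono (le_sup_right : K₂ ≤ K₁ ⊔ K₂) hu₂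
  subst hff
  subst huu
  -- the discrete valuation ring `O = A ∩ K`
  haveI hDVR := h23_isDVR_intermediate A hℓ hA (K₁ ⊔ K₂)
  haveI hchar := h23_charP_residueField (K := ↥(K₁ ⊔ K₂)) A hℓ hA
  haveI hc0 : CharZero ↥(K₁ ⊔ K₂) :=
    charZero_of_injective_algebraMap (algebraMap ℚ ↥(K₁ ⊔ K₂)).injective
  have hum' : u' ^ m = f' := by
    apply h19_coeffMap_injective (algebraMap ↥(K₁ ⊔ K₂) Lbar)
    rw [map_pow]
    exact hum
  have hf'V : f' ∈ gaussRing (A.comap (algebraMap ↥(K₁ ⊔ K₂) Lbar)) :=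
    mem_gaussRing_down A (mem_fracLam_of_mem_full _ N hf'N) hfV
  have hred' : gaussRed (A.comap (algebraMap ↥(K₁ ⊔ K₂) Lbar)) ⟨f', hf'V⟩ = 1 :=
    gaussRed_down_eq_one A hf'V hred
  have key := h19_instK (A.comap (algebraMap ↥(K₁ ⊔ K₂) Lbar)) ℓ hNM hℓM m
    (h23_inv_natCast_mem A hℓ hA m hm) hm0 f' hf'N hf'V hred' u' hu'M hum'
  rw [h19_bar_eq]
  exact h19_coeffMap_mem_full _ N key

/-- **THE LEVEL STEP** of the final chain: `Kum.StKumVAt A M m → Kum.StKumVAt A N m` for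
`N ∣ M`, `ℓ ∤ M`, `ℓ ∤ m`, `A` over `ℓ`. -/
theorem h19_level (hℓ : ℓ.Prime) (hA : A.LiesOverPrime ℓ) (hNM : N ∣ M) (hℓM : ¬ ℓ ∣ M)
    (m : ℕ) (hm : ¬ ℓ ∣ m) (hK : Kum.StKumVAt A M m) : Kum.StKumVAt A N m :=
  h19_kumVAt_of_dvd hNM m hK (h19_descVAt A hℓ hA hNM hℓM m hm)

/-- The level step for `Kum.StKummerAt`. -/
theorem h19_level_kummerAt (hℓ : ℓ.Prime) (hA : A.LiesOverPrime ℓ) (hNM : N ∣ M)
    (hℓM : ¬ ℓ ∣ M) (m : ℕ) (hm : ¬ ℓ ∣ m) (hK : Kum.StKummerAt A M m) :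
    Kum.StKummerAt A N m :=
  h19_kummerAt_of_dvd hNM m (fun h0 => hm (h0 ▸ dvd_zero ℓ)) hK
    (h19_descVAt A hℓ hA hNM hℓM m hm)

/-- The level step for all prime exponents `p ≠ ℓ`. -/
theorem h19_level_prime (hℓ : ℓ.Prime) (hA : A.LiesOverPrime ℓ) (hNM : N ∣ M)
    (hℓM : ¬ ℓ ∣ M) (hK : Kum.StKumVPrime A M ℓ) : Kum.StKumVPrime A N ℓ :=
  fun p hp hpℓ => h19_level A hℓ hA hNM hℓM p
    (fun h => hpℓ ((Nat.prime_dvd_prime_iff_eq hℓ hp).1 h).symm) (hK p hp hpℓ)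

/-- The level step for all exponents prime to `ℓ`. -/
theorem h19_level_all (hℓ : ℓ.Prime) (hA : A.LiesOverPrime ℓ) (hNM : N ∣ M)
    (hℓM : ¬ ℓ ∣ M) (hK : Kum.StKumV A M ℓ) : Kum.StKumV A N ℓ :=
  fun m hm => h19_level A hℓ hA hNM hℓM m hm (hK m hm)

end Fermat.Agent.S18x.Desc.H19
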