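import Fermat.Agent.S18x.Desc.H19_Bridge
import Fermat.Agent.S18x.Dict.H22_Ext

/-!
# S18, package DESC/DICT (helper19): (D0c) in the `Finset` shape consumed by (D3)

Every finite set of modular functions over `ℚ̄` comes from `modularFunctionFieldFullC K M` for all
intermediate fields `K` containing a suitable `K₀` finite over `ℚ`.
-/

set_option autoImplicit false

open HahnSeries IntermediateField ModularCurve

noncomputable section

namespace Fermat.Agent.S18x.Desc.H19

local notation "Lbar" => AlgebraicClosure ℚ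

/-- one element, all `K ≥ K₀` -/
theorem h19_exists_descent_bar (M : ℕ) [NeZero M] (x : ↥(modularFunctionFieldBar M)) :
    ∃ K₀ : IntermediateField ℚ Lbar, FiniteDimensional ℚ K₀ ∧
      ∀ K : IntermediateField ℚ Lbar, K₀ ≤ K →
        ∃ x' : ↥(modularFunctionFieldFullC K M), Dict.H22.iotaK K M x' = x := by
  have hx : (x : LaurentSeries Lbar) ∈ modularFunctionFieldFullC Lbar M := by
    rw [← h19_bar_eq]; exact x.2
  obtain ⟨K₀, hK₀, hd⟩ :=
    @h19_exists_descent Lbar _ _ M (AlgebraicClosure.isAlgebraic ℚ) _ hx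
  refine ⟨K₀, hK₀, fun K hK => ?_⟩
  obtain ⟨x', hx', hxx⟩ := h19_descends_mono hK hd
  exact ⟨⟨x', hx'⟩, Subtype.ext hxx⟩

/-- **(D0c), `Finset` form.** -/
theorem h19_exists_descent_finset (M : ℕ) [NeZero M] (T : Finset ↥(modularFunctionFieldBar M)) :
    ∃ K₀ : IntermediateField ℚ Lbar, FiniteDimensional ℚ K₀ ∧
      ∀ K : IntermediateField ℚ Lbar, K₀ ≤ K → ∀ x ∈ T,
        ∃ x' : ↥(modularFunctionFieldFullC K M), Dict.H22.iotaK K M x' = x := by
  classical
  induction T using Finset.induction_on with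
  | empty => exact ⟨⊥, inferInstance, fun K _ x hx => absurd hx (Finset.notMem_empty x)⟩
  | insert a T _ ih =>
    obtain ⟨K₁, hK₁, h₁⟩ := ih
    obtain ⟨K₂, hK₂, h₂⟩ := h19_exists_descent_bar M a
    haveI := hK₁
    haveI := hK₂
    refine ⟨K₁ ⊔ K₂, IntermediateField.finiteDimensional_sup K₁ K₂, fun K hK x hx => ?_⟩
    rcases Finset.mem_insert.1 hx with rfl | hxT
    · exact h₂ K (le_trans le_sup_right hK)
    · exact h₁ K (le_trans le_sup_left hK) x hxT

end Fermat.Agent.S18x.Desc.H19
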