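import Mathlib

/-!
# S18, package DESC (helper19): descent of the Kummer statement along an extension of valued
fields whose residue degree equals its degree

`F ⊆ F''` fields, `v` a valuation of `F''`.

* `h19_desc` : if every `u ∈ F'' \ F` has a "residually transcendental normal form"
  `u = c + a x` (`c, a ∈ F`, `a ≠ 0`, `v x ≤ 1`, the residue of `x` not in the residue field
  of `F`), then an `m`-th root `u ∈ F''` of an element of `F` whose residue is a non-zero element
  of the residue field of `F` already lies in `F` (`m` a unit for `v`).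
* `h19_H_of_family` : the normal form from a spanning, residually independent family.
* `h19_span_of_card` : a residually independent family of cardinality `[F'' : F]` spans.

Mathlib only.
-/

set_option autoImplicit false

namespace Fermat.Agent.S18x.Desc.H19

open Polynomial

variable {E Γ : Type*} [Field E] [LinearOrderedCommGroupWithZero Γ]

/-- The hypothesis (H): every element outside `F` has a normal form `c + a x` with `x` integral
and residually outside `F`. -/
def H19NormalForm (v : Valuation E Γ) (F : Subfield E) : Prop :=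
  ∀ u : E, u ∉ F → ∃ c ∈ F, ∃ a ∈ F, a ≠ 0 ∧ ∃ x : E, v x ≤ 1 ∧ u = c + a * x ∧
    ∀ b ∈ F, v b ≤ 1 → 1 ≤ v (x - b)

/-- Binomial expansion to second order inside the valuation ring. -/
theorem h19_binom (v : Valuation E Γ) (m : ℕ) (c t : E) (hc : v c ≤ 1) (ht : v t ≤ 1) :
    ∃ r : E, v r ≤ 1 ∧ (c + t) ^ m = c ^ m + (m : E) * c ^ (m - 1) * t + r * t ^ 2 := by
  let O := v.integer
  let c' : O := ⟨c, hc⟩
  let t' : O := ⟨t, ht⟩
  obtain ⟨k, hk⟩ := (X ^ m : O[X]).binomExpansion c' t'
  refine ⟨(k : E), k.2, ?_⟩
  have h := congrArg (fun z : O => (z : E)) hk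
  simp only [eval_pow, eval_X, derivative_X_pow, eval_mul, c', t'] at h
  simpa using h

/-- **(DESC)**. -/
theorem h19_desc (v : Valuation E Γ) (F : Subfield E) (hH : H19NormalForm v F)
    (m : ℕ) (hm : v (m : E) = 1) (u : E) (hu : u ^ m ∈ F)
    (b₀ : E) (hb₀ : b₀ ∈ F) (hb₀1 : v b₀ = 1) (hub : v (u - b₀) < 1) : u ∈ F := by
  by_contra huF
  obtain ⟨c, hcF, a, haF, ha0, x, hx1, hux, hxres⟩ := hH u huF
  have hvu : v u = 1 := by
    have : v (u - b₀ + b₀) = v b₀ := by
      apply Valuation.map_add_eq_of_lt_right
      rw [hb₀1]; exact hub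
    rwa [sub_add_cancel, hb₀1] at this
  have hva0 : v a ≠ 0 := (Valuation.ne_zero_iff v).2 ha0
  -- Step 1: `v a < 1`.
  have hva : v a < 1 := by
    by_contra hge
    rw [not_lt] at hge
    set b : E := (b₀ - c) / a with hb
    have hbF : b ∈ F := F.div_mem (F.sub_mem hb₀ hcF) haF
    have hxb : x - b = (u - b₀) / a := by
      rw [hb, hux]; field_simp; ring
    have hlt : v (x - b) < 1 := by
      rw [hxb, map_div₀]
      have hpos : 0 < v a := zero_lt_iff.2 hva0
      calc v (u - b₀) / v a ≤ v (u - b₀) := by
            rw [div_le_iff₀ hpos]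
            exact le_mul_of_one_le_right' hge
        _ < 1 := hub
    have hb1 : v b ≤ 1 := by
      have : b = x - (x - b) := by ring
      rw [this]
      exact (Valuation.map_sub _ _ _).trans (max_le hx1 hlt.le)
    exact absurd hlt (not_lt.2 (hxres b hbF hb1))
  -- Step 2: `v c = 1`.
  have hax : v (a * x) < 1 := by
    rw [map_mul]
    calc v a * v x ≤ v a * 1 := by gcongr
      _ = v a := mul_one _
      _ < 1 := hva
  have hvc : v c = 1 := by
    have hc : c = u - a * x := by rw [hux]; ring
    rw [hc, Valuation.map_sub_swap]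
    have : v (a * x - u) = v u := by
      have h1 : v (a * x + -u) = v (-u) := by
        apply Valuation.map_add_eq_of_lt_right
        rw [Valuation.map_neg, hvu]; exact hax
      rwa [← sub_eq_add_neg, Valuation.map_neg] at h1
    rw [this, hvu]
  have hc0 : c ≠ 0 := by
    intro h; rw [h, map_zero] at hvc; exact zero_ne_one hvc
  have hm0 : (m : E) ≠ 0 := by
    intro h; rw [h, map_zero] at hm; exact zero_ne_one hm
  -- Step 3: binomial expansion.
  obtain ⟨r, hr1, hexp⟩ := h19_binom v m c (a * x) hvc.le hax.le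
  set den : E := (m : E) * c ^ (m - 1) * a with hden
  have hden0 : den ≠ 0 := mul_ne_zero (mul_ne_zero hm0 (pow_ne_zero _ hc0)) ha0
  have hvden : v den = v a := by
    rw [hden, map_mul, map_mul, map_pow, hm, hvc, one_pow, one_mul, one_mul]
  set z : E := (u ^ m - c ^ m) / den with hz
  have hzF : z ∈ F := by
    refine F.div_mem (F.sub_mem hu (F.pow_mem hcF m)) ?_
    exact F.mul_mem (F.mul_mem (natCast_mem F m) (F.pow_mem hcF _)) haF
  have hzx : z - x = r * (a * x) ^ 2 / den := by
    rw [hz, hux, hexp, hden]; field_simp; ring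
  have hlt : v (x - z) < 1 := by
    rw [Valuation.map_sub_swap, hzx, map_div₀, hvden, map_mul, map_pow, map_mul]
    have hx0 : v x * v x ≤ 1 := by
      calc v x * v x ≤ 1 * 1 := by gcongr
        _ = 1 := one_mul _
    have : v r * (v a * v x) ^ 2 / v a = v r * (v x * v x) * v a := by
      field_simp
    rw [this]
    calc v r * (v x * v x) * v a ≤ 1 * 1 * v a := by gcongr
      _ = v a := by rw [one_mul, one_mul]
      _ < 1 := hva
  have hz1 : v z ≤ 1 := by
    have : z = x - (x - z) := by ring
    rw [this]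
    exact (Valuation.map_sub _ _ _).trans (max_le hx1 hlt.le)
  exact absurd hlt (not_lt.2 (hxres z hzF hz1))

/-- Residual independence of a family `y` over `F`: an `F`-combination with integral coefficients
which lies in the maximal ideal has all its coefficients in the maximal ideal. -/
def H19ResIndep (v : Valuation E Γ) (F : Subfield E) {ι : Type*} [Fintype ι] (y : ι → E) : Prop :=
  ∀ a : ι → E, (∀ i, a i ∈ F) → (∀ i, v (a i) ≤ 1) → v (∑ i, a i * y i) < 1 → ∀ i, v (a i) < 1

/-- **(H) from a spanning residually independent family containing `1`.** -/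
theorem h19_H_of_family (v : Valuation E Γ) (F : Subfield E) {ι : Type*} [Fintype ι]
    (y : ι → E) (i₀ : ι) (hy0 : y i₀ = 1) (hyint : ∀ i, v (y i) ≤ 1)
    (hspan : ∀ u : E, ∃ a : ι → E, (∀ i, a i ∈ F) ∧ u = ∑ i, a i * y i)
    (hres : H19ResIndep v F y) : H19NormalForm v F := by
  classical
  intro u huF
  obtain ⟨a, haF, hu⟩ := hspan u
  have hsplit : ∀ f : ι → E, ∑ i, f i = f i₀ + ∑ i ∈ Finset.univ.erase i₀, f i := fun f =>
    (Finset.add_sum_erase Finset.univ f (Finset.mem_univ i₀)).symm
  -- some coefficient away from `i₀` is non-zero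
  have hex : ∃ i ∈ Finset.univ.erase i₀, a i ≠ 0 := by
    by_contra hno
    push Not at hno
    apply huF
    rw [hu, hsplit, hy0, mul_one, Finset.sum_eq_zero (fun i hi => by rw [hno i hi, zero_mul]),
      add_zero]
    exact haF i₀
  obtain ⟨j, hj, hj0⟩ := hex
  obtain ⟨i₁, hi₁, hmax⟩ := Finset.exists_max_image (Finset.univ.erase i₀) (fun i => v (a i))
    ⟨j, hj⟩
  have hi₁0 : a i₁ ≠ 0 := by
    intro h
    have := hmax j hj
    simp only [h, map_zero] at this
    exact hj0 ((Valuation.zero_iff v).1 (le_antisymm this zero_le))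
  have hvi₁ : v (a i₁) ≠ 0 := (Valuation.ne_zero_iff v).2 hi₁0
  have hcoef : ∀ i ∈ Finset.univ.erase i₀, v (a i / a i₁) ≤ 1 := by
    intro i hi
    rw [map_div₀, div_le_iff₀ (zero_lt_iff.2 hvi₁), one_mul]
    exact hmax i hi
  set x : E := ∑ i ∈ Finset.univ.erase i₀, a i / a i₁ * y i with hx
  refine ⟨a i₀, haF i₀, a i₁, haF i₁, hi₁0, x, ?_, ?_, ?_⟩
  · refine Valuation.map_sum_le v fun i hi => ?_
    rw [map_mul]
    calc v (a i / a i₁) * v (y i) ≤ 1 * 1 := by
          gcongr
          · exact hcoef i hi
          · exact hyint i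
      _ = 1 := one_mul _
  · rw [hu, hsplit, hy0, mul_one, hx, Finset.mul_sum]
    congr 1
    refine Finset.sum_congr rfl fun i _ => ?_
    field_simp
  · intro b hbF hb1
    by_contra hlt
    rw [not_le] at hlt
    set a' : ι → E := fun i => if i = i₀ then -b else a i / a i₁ with ha'
    have ha'F : ∀ i, a' i ∈ F := by
      intro i
      by_cases h : i = i₀
      · simp only [ha', h, if_true]; exact F.neg_mem hbF
      · simp only [ha', h, if_false]; exact F.div_mem (haF i) (haF i₁)
    have ha'1 : ∀ i, v (a' i) ≤ 1 := by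
      intro i
      by_cases h : i = i₀
      · simp only [ha', h, if_true, Valuation.map_neg]; exact hb1
      · simp only [ha', h, if_false]
        exact hcoef i (Finset.mem_erase.2 ⟨h, Finset.mem_univ i⟩)
    have hsum : ∑ i, a' i * y i = x - b := by
      rw [hsplit, hy0, mul_one, hx]
      have h1 : a' i₀ = -b := by simp [ha']
      have h2 : ∑ i ∈ Finset.univ.erase i₀, a' i * y i
          = ∑ i ∈ Finset.univ.erase i₀, a i / a i₁ * y i := by
        refine Finset.sum_congr rfl fun i hi => ?_
        have : i ≠ i₀ := (Finset.mem_erase.1 hi).1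
        simp [ha', this]
      rw [h1, h2]; ring
    have := hres a' ha'F ha'1 (by rw [hsum]; exact hlt) i₁
    have hne : i₁ ≠ i₀ := (Finset.mem_erase.1 hi₁).1
    simp only [ha', hne, if_false, div_self hi₁0, map_one, lt_self_iff_false] at this

/-- A residually independent family is linearly independent over `F`. -/
theorem h19_linearIndependent (v : Valuation E Γ) (F : Subfield E) {ι : Type*} [Fintype ι]
    (y : ι → E) (hres : H19ResIndep v F y) : LinearIndependent (↥F) y := by
  classical
  rw [Fintype.linearIndependent_iff]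
  intro g hg
  by_contra hno
  push Not at hno
  obtain ⟨j, hj0⟩ := hno
  obtain ⟨i₁, -, hmax⟩ := Finset.exists_max_image (Finset.univ : Finset ι)
    (fun i => v ((g i : E))) ⟨j, Finset.mem_univ j⟩
  have hi₁0 : (g i₁ : E) ≠ 0 := by
    intro h
    have := hmax j (Finset.mem_univ j)
    simp only [h, map_zero] at this
    have h0 : (g j : E) = 0 := (Valuation.zero_iff v).1 (le_antisymm this zero_le)
    exact hj0 (Subtype.ext h0)
  have hvi₁ : v (g i₁ : E) ≠ 0 := (Valuation.ne_zero_iff v).2 hi₁0
  set a : ι → E := fun i => (g i : E) / (g i₁ : E) with ha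
  have haF : ∀ i, a i ∈ F := fun i => F.div_mem (g i).2 (g i₁).2
  have ha1 : ∀ i, v (a i) ≤ 1 := by
    intro i
    simp only [ha]
    rw [map_div₀, div_le_iff₀ (zero_lt_iff.2 hvi₁), one_mul]
    exact hmax i (Finset.mem_univ i)
  have hsum : ∑ i, a i * y i = 0 := by
    have h1 : ∑ i, a i * y i = (∑ i, (g i : E) * y i) / (g i₁ : E) := by
      rw [Finset.sum_div]
      refine Finset.sum_congr rfl fun i _ => ?_
      simp only [ha]; ring
    have h2 : ∑ i, (g i : E) * y i = 0 := by
      have := hg
      simpa [Subfield.smul_def] using this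
    rw [h1, h2, zero_div]
  have := hres a haF ha1 (by rw [hsum, map_zero]; exact zero_lt_one) i₁
  simp only [ha, div_self hi₁0, map_one, lt_self_iff_false] at this

/-- **A residually independent family of cardinality `[E : F]` spans `E` over `F`.** -/
theorem h19_span_of_card (v : Valuation E Γ) (F : Subfield E) {ι : Type*} [Fintype ι]
    [Nonempty ι] (y : ι → E) (hres : H19ResIndep v F y)
    (hcard : Fintype.card ι = Module.finrank (↥F) E) :
    ∀ u : E, ∃ a : ι → E, (∀ i, a i ∈ F) ∧ u = ∑ i, a i * y i := by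
  classical
  intro u
  have hli := h19_linearIndependent v F y hres
  let b := basisOfLinearIndependentOfCardEqFinrank hli hcard
  refine ⟨fun i => ((b.repr u i : ↥F) : E), fun i => (b.repr u i).2, ?_⟩
  have h := b.sum_repr u
  rw [coe_basisOfLinearIndependentOfCardEqFinrank] at h
  conv_lhs => rw [← h]
  refine Finset.sum_congr rfl fun i _ => ?_
  rw [Subfield.smul_def, smul_eq_mul]

/-- **(DESC), final form**: a residually independent family `y` of cardinality `[E : F]` with
`y i₀ = 1`, integral members; then `m`-th roots with residue in the residue field of `F`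
descend to `F`. -/
theorem h19_desc_of_card (v : Valuation E Γ) (F : Subfield E) {ι : Type*} [Fintype ι]
    (y : ι → E) (i₀ : ι) (hy0 : y i₀ = 1) (hyint : ∀ i, v (y i) ≤ 1)
    (hres : H19ResIndep v F y) (hcard : Fintype.card ι = Module.finrank (↥F) E)
    (m : ℕ) (hm : v (m : E) = 1) (u : E) (hu : u ^ m ∈ F)
    (b₀ : E) (hb₀ : b₀ ∈ F) (hb₀1 : v b₀ = 1) (hub : v (u - b₀) < 1) : u ∈ F :=
  haveI : Nonempty ι := ⟨i₀⟩
  h19_desc v F (h19_H_of_family v F y i₀ hy0 hyint (h19_span_of_card v F y hres hcard) hres)
    m hm u hu b₀ hb₀ hb₀1 hub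

end Fermat.Agent.S18x.Desc.H19
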