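import Fermat.Agent.S18x.Desc.H19_Desc

/-!
# S18, package DESC (helper19): the residually independent family from the residue degree

`E` a valued field, `F` a subfield, `red : v.integer →+* Lbar` a reduction map with kernel the
maximal ideal. If `κ ≤ Lbar` is a subfield containing the reductions of the integral elements of
`F` and `W` is a `κ`-subspace of `Lbar` consisting of reductions, containing `1`, of dimension
`[E : F]`, then there is a family as required by `h19_desc_of_card`, and hence `m`-th roots
descend (`h19_desc_of_residue_degree`).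

Mathlib only.
-/

set_option autoImplicit false

namespace Fermat.Agent.S18x.Desc.H19

variable {E Γ Lbar : Type*} [Field E] [LinearOrderedCommGroupWithZero Γ] [Field Lbar]

/-- The family: lifts of a `κ`-basis of `W` containing `1`. -/
theorem h19_exists_family (v : Valuation E Γ) (F : Subfield E)
    (red : v.integer →+* Lbar) (hker : ∀ x : v.integer, red x = 0 ↔ v (x : E) < 1)
    (κ : Subfield Lbar) (hκ : ∀ x : v.integer, (x : E) ∈ F → red x ∈ κ)
    (W : Submodule (↥κ) Lbar) (hW1 : (1 : Lbar) ∈ W)
    (hWred : ∀ w ∈ W, ∃ x : v.integer, red x = w)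
    (hdim : Module.finrank (↥κ) (↥W) = Module.finrank (↥F) E)
    (hpos : 0 < Module.finrank (↥F) E) :
    ∃ (ι : Type) (_ : Fintype ι) (y : ι → E) (i₀ : ι), y i₀ = 1 ∧ (∀ i, v (y i) ≤ 1) ∧
      H19ResIndep v F y ∧ Fintype.card ι = Module.finrank (↥F) E := by
  classical
  have : Module.Finite (↥κ) (↥W) := Module.finite_of_finrank_pos (by rw [hdim]; exact hpos)
  -- a basis of `W` containing `1`
  set w₁ : ↥W := ⟨1, hW1⟩ with hw₁
  have hw₁0 : w₁ ≠ 0 := by
    intro h
    have := congrArg Subtype.val h
    simp [hw₁] at this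
  have hli : LinearIndepOn (↥κ) id ({w₁} : Set ↥W) := by
    rw [LinearIndepOn]
    exact LinearIndependent.of_subsingleton (⟨w₁, rfl⟩ : ({w₁} : Set ↥W)) (by simpa using hw₁0)
  let b := Module.Basis.extend hli
  have hmemext : w₁ ∈ hli.extend (Set.subset_univ _) :=
    hli.subset_extend (Set.subset_univ _) (Set.mem_singleton w₁)
  let j₀ : ↥(hli.extend (Set.subset_univ _)) := ⟨w₁, hmemext⟩
  have hbj₀ : b j₀ = w₁ := by
    simp [b, j₀, Module.Basis.extend_apply_self]
  letI : Fintype ↥(hli.extend (Set.subset_univ _)) := FiniteDimensional.fintypeBasisIndex b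
  -- transport to `Fin n`
  set n := Fintype.card ↥(hli.extend (Set.subset_univ _)) with hn
  have hcard : n = Module.finrank (↥F) E := by
    rw [hn, ← Module.finrank_eq_card_basis b, hdim]
  let e : Fin n ≃ ↥(hli.extend (Set.subset_univ _)) := (Fintype.equivFin _).symm
  let b' : Module.Basis (Fin n) (↥κ) (↥W) := b.reindex e.symm
  let i₀ : Fin n := e.symm j₀
  have hb'i₀ : ((b' i₀ : ↥W) : Lbar) = 1 := by
    simp [b', i₀, hbj₀, hw₁]
  -- lifts
  choose lift hlift using fun i : Fin n => hWred (b' i : Lbar) (b' i).2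
  let y' : Fin n → v.integer := fun i => if i = i₀ then 1 else lift i
  have hy'red : ∀ i, red (y' i) = (b' i : Lbar) := by
    intro i
    by_cases h : i = i₀
    · simp only [y', h, if_true, map_one]; exact hb'i₀.symm
    · simp only [y', h, if_false]; exact hlift i
  refine ⟨Fin n, inferInstance, fun i => ((y' i : v.integer) : E), i₀, ?_, fun i => (y' i).2, ?_,
    by rw [Fintype.card_fin]; exact hcard⟩
  · simp [y']
  · intro a haF ha1 hsum i
    let a' : Fin n → v.integer := fun i => ⟨a i, ha1 i⟩
    have hcoe : ((∑ i, a' i * y' i : v.integer) : E) = ∑ i, a i * (y' i : E) := by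
      simp [a']
    have hred0 : red (∑ i, a' i * y' i) = 0 := by
      rw [hker, hcoe]; exact hsum
    have hsum' : ∑ i, (⟨red (a' i), hκ (a' i) (haF i)⟩ : ↥κ) • b' i = 0 := by
      apply Subtype.ext
      rw [Submodule.coe_sum, Submodule.coe_zero, ← hred0, map_sum]
      refine Finset.sum_congr rfl fun i _ => ?_
      rw [Submodule.coe_smul, map_mul, hy'red, Subfield.smul_def, smul_eq_mul]
    have hzero := (Fintype.linearIndependent_iff.1 b'.linearIndependent) _ hsum' i
    have : red (a' i) = 0 := congrArg Subtype.val hzero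
    exact (hker (a' i)).1 this

/-- **(DESC) from the residue degree**: if the residue degree (measured by the `κ`-space `W` of
reductions) equals the degree `[E : F]`, then an `m`-th root `u ∈ E` of an element of `F`,
congruent modulo the maximal ideal to a unit `b₀ ∈ F`, lies in `F` (`m` a unit for `v`). -/
theorem h19_desc_of_residue_degree (v : Valuation E Γ) (F : Subfield E)
    (red : v.integer →+* Lbar) (hker : ∀ x : v.integer, red x = 0 ↔ v (x : E) < 1)
    (κ : Subfield Lbar) (hκ : ∀ x : v.integer, (x : E) ∈ F → red x ∈ κ)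
    (W : Submodule (↥κ) Lbar) (hW1 : (1 : Lbar) ∈ W)
    (hWred : ∀ w ∈ W, ∃ x : v.integer, red x = w)
    (hdim : Module.finrank (↥κ) (↥W) = Module.finrank (↥F) E)
    (hpos : 0 < Module.finrank (↥F) E)
    (m : ℕ) (hm : v (m : E) = 1) (u : E) (hu : u ^ m ∈ F)
    (b₀ : E) (hb₀ : b₀ ∈ F) (hb₀1 : v b₀ = 1) (hub : v (u - b₀) < 1) : u ∈ F := by
  obtain ⟨ι, _, y, i₀, hy0, hyint, hres, hcard⟩ :=
    h19_exists_family v F red hker κ hκ W hW1 hWred hdim hpos
  exact h19_desc_of_card v F y i₀ hy0 hyint hres hcard m hm u hu b₀ hb₀ hb₀1 hub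

end Fermat.Agent.S18x.Desc.H19
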