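import Fermat.Agent.S18x.Desc.H19_ValSub
import Fermat.Agent.S18x.Qepo.H1_Basis
import Fermat.Agent.S18x.Dict.H20_GaussModular
import Fermat.Agent.S18x.E.H29_LaurentAlg
import Fermat.Agent.S28.Asm.H11_Deg
import Fermat.Agent.S28.Deg.H8_Psi

/-!
# S18, package DESC (helper19): the descent instance over a discrete valuation ring

`K` a field of characteristic `0`, `O : ValuationSubring K` a discrete valuation ring with
residue field `κ` of characteristic `ℓ`, `N ∣ M`, `ℓ ∤ M`, `m` invertible in `O`.

**`h19_instK`**: if `f ∈ F_N(K)` lies in the Gauss ring of `O` with Gauss reduction `1` and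
`u ∈ F_M(K)` satisfies `u ^ m = f`, then `u ∈ F_N(K)`.

Proof: `h19_desc_valuationSubring` for the Gauss valuation subring of `F_M(K)` (helper20), with
* residue degree `[F_M(κ) : F_N(κ)] = ψ(M)/ψ(N) = [F_M(K) : F_N(K)]` (S28 degrees, helper1/helper2);
* `red (F_N(K) ∩ V) ⊆ F_N(κ)` (helper1 (Q5)) and `F_M(κ) ⊆ red (F_M(K) ∩ V)` (helper1 (LIFT));
* `κ` is algebraically closed in `κ((q))` (helper29), so the reduction of `u` is a constant.
-/

set_option autoImplicit false
set_option linter.style.haveILetI false
set_option linter.unusedSectionVars false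
set_option synthInstance.maxHeartbeats 400000
set_option maxHeartbeats 1000000

open IntermediateField ModularCurve Fermat.Agent.S28 Fermat.Agent.S18x.Dict.H20

noncomputable section

namespace Fermat.Agent.S18x.Desc.H19

section Generic

variable {k E₀ : Type*} [Field k] [Field E₀] [Algebra k E₀]

/-- `[B : A]` computed inside `B`. -/
theorem h19_finrank_comap (A B : IntermediateField k E₀) (h : A ≤ B) :
    Module.finrank ↥(Subfield.comap (algebraMap ↥B E₀) A.toSubfield) ↥B = relfinrank A B := by
  rw [relfinrank_eq_finrank_of_le h]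
  let i : ↥(Subfield.comap (algebraMap ↥B E₀) A.toSubfield) ≃+* ↥A :=
    { toFun := fun x => ⟨((x : ↥B) : E₀), x.2⟩
      invFun := fun y => ⟨⟨(y : E₀), h y.2⟩, y.2⟩
      left_inv := fun x => rfl
      right_inv := fun y => rfl
      map_mul' := fun _ _ => rfl
      map_add' := fun _ _ => rfl }
  let j : ↥B ≃+* ↥(IntermediateField.extendScalars h) := RingEquiv.refl _
  refine Algebra.finrank_eq_of_equiv_equiv i j ?_
  ext a
  rfl

/-- `B` as a subspace of `E₀` over the subfield `A`. -/
def h19W (A B : IntermediateField k E₀) (h : A ≤ B) : Submodule ↥A.toSubfield E₀ where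
  carrier := B
  add_mem' := fun ha hb => B.add_mem ha hb
  zero_mem' := B.zero_mem
  smul_mem' := fun c x hx => by
    rw [Subfield.smul_def]
    exact B.mul_mem (h c.2) hx

theorem h19_mem_W (A B : IntermediateField k E₀) (h : A ≤ B) {x : E₀} :
    x ∈ h19W A B h ↔ x ∈ B := Iff.rfl

theorem h19_finrank_W (A B : IntermediateField k E₀) (h : A ≤ B) :
    Module.finrank ↥A.toSubfield ↥(h19W A B h) = relfinrank A B := by
  rw [relfinrank_eq_finrank_of_le h]
  rfl

end Generic

section Degree

/-- `ψ(N) * [F_M : F_N] = ψ(M)` when both degrees over the `j`-line are the expected ones. -/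
theorem h19_psi_mul_relfinrank (k : Type) [Field k] {N M : ℕ} [NeZero N] [NeZero M] (h : N ∣ M)
    (hN : Asm.degC k N = Asm.psi N) (hM : Asm.degC k M = Asm.psi M) :
    Asm.psi N * relfinrank (modularFunctionFieldFullC k N) (modularFunctionFieldFullC k M) =
      Asm.psi M := by
  rw [← hN, ← hM, Asm.degC_eq_relfinrank, Asm.degC_eq_relfinrank]
  exact relfinrank_mul_relfinrank (Asm.kj_le_full k N) (full_degeneracyC_le k h)

/-- **Residue degree = degree** for `F_M / F_N`, `ℓ ∤ M`. -/
theorem h19_relfinrank_eq (K κ : Type) [Field K] [CharZero K] [Field κ] (ℓ : ℕ) [Fact ℓ.Prime]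
    [CharP κ ℓ] {N M : ℕ} [NeZero N] [NeZero M] (h : N ∣ M) (hℓM : ¬ ℓ ∣ M) :
    relfinrank (modularFunctionFieldFullC κ N) (modularFunctionFieldFullC κ M) =
        relfinrank (modularFunctionFieldFullC K N) (modularFunctionFieldFullC K M) ∧
      0 < relfinrank (modularFunctionFieldFullC K N) (modularFunctionFieldFullC K M) := by
  have hℓN : ¬ ℓ ∣ N := fun h' => hℓM (h'.trans h)
  have h1 := h19_psi_mul_relfinrank K h (Qepo.degC_char_zero K N).2 (Qepo.degC_char_zero K M).2
  have h2 := h19_psi_mul_relfinrank κ h (Qepo.degC_kappa κ N ℓ hℓN).2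
    (Qepo.degC_kappa κ M ℓ hℓM).2
  have hN := Deg.H8.psi_pos N
  have hM := Deg.H8.psi_pos M
  constructor
  · exact Nat.eq_of_mul_eq_mul_left hN (h2.trans h1.symm)
  · rcases Nat.eq_zero_or_pos
      (relfinrank (modularFunctionFieldFullC K N) (modularFunctionFieldFullC K M)) with h0 | h0
    · rw [h0, mul_zero] at h1
      omega
    · exact h0

end Degree

section Inst

variable {K : Type} [Field K] [CharZero K] (O : ValuationSubring K) [IsDiscreteValuationRing O]

/-- **The descent instance over a discrete valuation ring.** -/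
theorem h19_instK (ℓ : ℕ) [Fact ℓ.Prime] [CharP (IsLocalRing.ResidueField O) ℓ]
    {N M : ℕ} [NeZero N] [NeZero M] (hNM : N ∣ M) (hℓM : ¬ ℓ ∣ M)
    (m : ℕ) (hm : ((m : K))⁻¹ ∈ O) (hm0 : m ≠ 0)
    (f : LaurentSeries K) (hfN : f ∈ modularFunctionFieldFullC K N) (hfV : f ∈ gaussRing O)
    (hred : gaussRed O ⟨f, hfV⟩ = 1)
    (u : LaurentSeries K) (hu : u ∈ modularFunctionFieldFullC K M) (hum : u ^ m = f) :
    u ∈ modularFunctionFieldFullC K N := by
  classical
  obtain ⟨π, hπ⟩ := IsDiscreteValuationRing.exists_irreducible O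
  have hℓN : ¬ ℓ ∣ N := fun h => hℓM (h.trans hNM)
  have hle : modularFunctionFieldFullC K N ≤ modularFunctionFieldFullC K M :=
    full_degeneracyC_le K hNM
  have hle' : modularFunctionFieldFullC (IsLocalRing.ResidueField O) N ≤
      modularFunctionFieldFullC (IsLocalRing.ResidueField O) M :=
    full_degeneracyC_le (IsLocalRing.ResidueField O) hNM
  -- the reduction map and its properties
  have hinv : ∀ x : gaussValM O M, gaussRedM O M x ≠ 0 →
      ((x : ↥(modularFunctionFieldFullC K M)))⁻¹ ∈ gaussValM O M := by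
    intro x hx
    rw [mem_gaussValM_iff]
    have h1 := inv_mem_gaussRing O (x := ⟨((x : ↥(modularFunctionFieldFullC K M)) :
      LaurentSeries K), x.2⟩) hx
    simpa using h1
  have hκ : ∀ x : gaussValM O M,
      (x : ↥(modularFunctionFieldFullC K M)) ∈
        Subfield.comap (algebraMap ↥(modularFunctionFieldFullC K M) (LaurentSeries K))
          (modularFunctionFieldFullC K N).toSubfield →
      gaussRedM O M x ∈ (modularFunctionFieldFullC (IsLocalRing.ResidueField O) N).toSubfield := by
    intro x hx
    exact Qepo.gaussRed_mem_full O π hπ N ℓ hℓN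
      ⟨((x : ↥(modularFunctionFieldFullC K M)) : LaurentSeries K), x.2⟩ hx
  have hW1 : (1 : LaurentSeries (IsLocalRing.ResidueField O)) ∈
      h19W (modularFunctionFieldFullC (IsLocalRing.ResidueField O) N)
        (modularFunctionFieldFullC (IsLocalRing.ResidueField O) M) hle' :=
    (modularFunctionFieldFullC (IsLocalRing.ResidueField O) M).one_mem
  have hWred : ∀ w ∈ h19W (modularFunctionFieldFullC (IsLocalRing.ResidueField O) N)
      (modularFunctionFieldFullC (IsLocalRing.ResidueField O) M) hle',
      ∃ x : gaussValM O M, gaussRedM O M x = w := by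
    intro w hw
    obtain ⟨y, hy, hyred⟩ := Qepo.exists_lift O M w hw
    exact ⟨⟨⟨gIota O y, hy⟩, coeffMap_subtype_mem_gaussRing O y⟩,
      (gaussRed_coeffMap_subtype O y).trans hyred⟩
  obtain ⟨hdeg, hpos⟩ := h19_relfinrank_eq K (IsLocalRing.ResidueField O) ℓ hNM hℓM
  have hdim : Module.finrank
      ↥(modularFunctionFieldFullC (IsLocalRing.ResidueField O) N).toSubfield
      ↥(h19W (modularFunctionFieldFullC (IsLocalRing.ResidueField O) N)
        (modularFunctionFieldFullC (IsLocalRing.ResidueField O) M) hle') =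
      Module.finrank
        ↥(Subfield.comap (algebraMap ↥(modularFunctionFieldFullC K M) (LaurentSeries K))
          (modularFunctionFieldFullC K N).toSubfield)
        ↥(modularFunctionFieldFullC K M) := by
    rw [h19_finrank_W, h19_finrank_comap _ _ hle, hdeg]
  have hposE : 0 < Module.finrank
      ↥(Subfield.comap (algebraMap ↥(modularFunctionFieldFullC K M) (LaurentSeries K))
        (modularFunctionFieldFullC K N).toSubfield)
      ↥(modularFunctionFieldFullC K M) := by
    rw [h19_finrank_comap _ _ hle]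
    exact hpos
  -- the exponent
  have hmE : (((m : ℕ) : ↥(modularFunctionFieldFullC K M)))⁻¹ ∈ gaussValM O M := by
    rw [mem_gaussValM_iff]
    have h1 := C_mem_gaussRing O ⟨((m : K))⁻¹, hm⟩
    have h2 : (((((m : ℕ) : ↥(modularFunctionFieldFullC K M)))⁻¹ :
        ↥(modularFunctionFieldFullC K M)) : LaurentSeries K) =
        HahnSeries.C ((m : K))⁻¹ := by
      simp
    rw [h2]
    exact h1
  have hmE0 : ((m : ℕ) : ↥(modularFunctionFieldFullC K M)) ≠ 0 := by
    exact_mod_cast hm0
  -- the elements
  set u' : ↥(modularFunctionFieldFullC K M) := ⟨u, hu⟩ with hu'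
  have hu'm : ((u' ^ m : ↥(modularFunctionFieldFullC K M)) : LaurentSeries K) = f := by
    simpa using hum
  have hu'F : u' ^ m ∈
      Subfield.comap (algebraMap ↥(modularFunctionFieldFullC K M) (LaurentSeries K))
        (modularFunctionFieldFullC K N).toSubfield := by
    show ((u' ^ m : ↥(modularFunctionFieldFullC K M)) : LaurentSeries K) ∈
      modularFunctionFieldFullC K N
    rw [hu'm]
    exact hfN
  have hf1 : gaussRed O ⟨f, hfV⟩ ≠ 0 := by
    rw [hred]
    exact one_ne_zero
  have hf0 : f ≠ 0 := by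
    rintro rfl
    apply hf1
    have : (⟨0, hfV⟩ : gaussRing O) = 0 := rfl
    rw [this, map_zero]
  have hu0 : u ≠ 0 := by
    rintro rfl
    rw [zero_pow hm0] at hum
    exact hf0 hum.symm
  -- `u` lies in the Gauss ring
  have huV : u ∈ gaussRing O := by
    rcases mem_gaussRing_or_inv_mem O π hπ (mem_fracLam_of_mem_full O M hu) with h | h
    · exact h
    · have h3 : u = (u⁻¹) ^ (m - 1) * f := by
        rw [← hum, inv_pow]
        have : u ^ m = u ^ (m - 1) * u := by
          rw [← pow_succ, Nat.sub_add_cancel (Nat.pos_of_ne_zero hm0)]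
        rw [this]
        field_simp
      rw [h3]
      exact mul_mem (pow_mem h _) hfV
  have hρu : gaussRed O ⟨u, huV⟩ ^ m = 1 := by
    rw [← map_pow, ← hred]
    congr 1
    exact Subtype.ext hum
  -- the reduction of `u` is a constant
  have halg : IsAlgebraic (IsLocalRing.ResidueField O) (gaussRed O ⟨u, huV⟩) := by
    refine ⟨Polynomial.X ^ m - 1, ?_, ?_⟩
    · have h1 := Polynomial.X_pow_sub_C_ne_zero (Nat.pos_of_ne_zero hm0)
        (1 : IsLocalRing.ResidueField O)
      rwa [map_one] at h1
    · simp [hρu]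
  obtain ⟨cbar, hcbar⟩ := E.H29.laurent_mem_range_of_isAlgebraic _ halg
  obtain ⟨c, rfl⟩ := IsLocalRing.residue_surjective cbar
  have hcC : (HahnSeries.C (c : K) : LaurentSeries K) =
      algebraMap K (LaurentSeries K) (c : K) := by
    rw [algebraMap_laurentSeries_eq_single, HahnSeries.C_apply]
  have hcM : (HahnSeries.C (c : K) : LaurentSeries K) ∈ modularFunctionFieldFullC K M := by
    rw [hcC]
    exact IntermediateField.algebraMap_mem _ _
  have hcN : (HahnSeries.C (c : K) : LaurentSeries K) ∈ modularFunctionFieldFullC K N := by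
    rw [hcC]
    exact IntermediateField.algebraMap_mem _ _
  set b₀ : gaussValM O M := ⟨⟨HahnSeries.C (c : K), hcM⟩, C_mem_gaussRing O c⟩ with hb₀
  have hb₀ρ : gaussRedM O M b₀ = gaussRed O ⟨u, huV⟩ := by
    rw [← hcbar]
    have h1 := gaussRed_gaussC O c
    rw [algebraMap_laurentSeries_eq_single, ← HahnSeries.C_apply]
    exact h1
  have hb₀ne : gaussRedM O M b₀ ≠ 0 := by
    rw [hb₀ρ]
    intro h0
    rw [h0, zero_pow hm0] at hρu
    exact zero_ne_one hρu
  set uV : gaussValM O M := ⟨u', huV⟩ with huVdef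
  have huVρ : gaussRedM O M uV = gaussRed O ⟨u, huV⟩ := rfl
  have key := h19_desc_valuationSubring (gaussValM O M) (gaussRedM O M) hinv
    (Subfield.comap (algebraMap ↥(modularFunctionFieldFullC K M) (LaurentSeries K))
      (modularFunctionFieldFullC K N).toSubfield)
    (modularFunctionFieldFullC (IsLocalRing.ResidueField O) N).toSubfield hκ
    (h19W (modularFunctionFieldFullC (IsLocalRing.ResidueField O) N)
      (modularFunctionFieldFullC (IsLocalRing.ResidueField O) M) hle') hW1 hWred hdim hposE
    m hmE hmE0 u' hu'F b₀ hcN hb₀ne (uV - b₀) rfl (by rw [map_sub, hb₀ρ, huVρ, sub_self])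
  exact key

end Inst

end Fermat.Agent.S18x.Desc.H19
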