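import Fermat.Agent.S18x.Asm.Defs
import Fermat.Prelude.Def_AlgebraicCurve_DivisorPushPull

/-!
# S18, package DESC (helper19): `StKummer` at level `M` implies `StKummer` at level `N ∣ M`

The Kummer statement is needed only at an auxiliary level `M` (a multiple of `N`, prime to `ℓ`,
without elliptic points); the descent to level `N` uses

* `StDescInst A N M ℓ` : an `m`-th root in `F_M` of a quotient `Y₁ / Y₂ ∈ F_N` of integral series
  with equal non-zero reductions lies in `F_N` (instance of `h19_desc_of_residue_degree`);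
* `StConst0 M` : a modular function of level `M` without zeros and poles is constant;
* `StDiv M` (of `Asm/Defs`) : every non-zero modular function of level `M` has a divisor;
* the restriction of places `Place.restrict` of the prelude.
-/

set_option autoImplicit false
set_option synthInstance.maxHeartbeats 400000
set_option maxHeartbeats 1000000

open HahnSeries IntermediateField AlgebraicCurve ModularCurve

noncomputable section

namespace Fermat.Agent.S18x.Desc.H19

variable (A : ValuationSubring (AlgebraicClosure ℚ)) (N M : ℕ) [NeZero N] [NeZero M]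

/-- **[DESC-INST]**: an `m`-th root, in the level-`M` field, of a quotient of two integral series
of level `N` with the same non-zero reduction is of level `N` (`ℓ ∤ m`). -/
def StDescInst (ℓ : ℕ) : Prop :=
  ∀ m : ℕ, ¬ ℓ ∣ m → ∀ (Y₁ Y₂ : LaurentSeries A),
    coeffMap A.subtype Y₁ ∈ modularFunctionFieldBar N →
    coeffMap A.subtype Y₂ ∈ modularFunctionFieldBar N →
    coeffMap (IsLocalRing.residue A) Y₁ = coeffMap (IsLocalRing.residue A) Y₂ →
    coeffMap (IsLocalRing.residue A) Y₁ ≠ 0 →
    ∀ u : LaurentSeries (AlgebraicClosure ℚ), u ∈ modularFunctionFieldBar M →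
      u ^ m * coeffMap A.subtype Y₂ = coeffMap A.subtype Y₁ → u ∈ modularFunctionFieldBar N

/-- **[CONST0]**: a modular function of level `M` (over `ℚ̄`) without zeros and poles is a
constant. -/
def StConst0 : Prop :=
  ∀ g : modularFunctionFieldBar M, g ≠ 0 →
    (∀ Q : Place (AlgebraicClosure ℚ) (modularFunctionFieldBar M), Q.ord g = 0) →
    ∃ c : AlgebraicClosure ℚ, algebraMap (AlgebraicClosure ℚ) (modularFunctionFieldBar M) c = g

omit [NeZero N] [NeZero M] in
theorem h19_coeffMap_subtype_injective :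
    Function.Injective (coeffMap (A.subtype)) := by
  intro x y hxy
  ext n
  have := congrArg (fun z => z.coeff n) hxy
  simp only [coeffMap_coeff] at this
  exact this

omit [NeZero N] [NeZero M] in
theorem h19_ne_zero_of_residue_ne_zero {Y : LaurentSeries A}
    (h : coeffMap (IsLocalRing.residue A) Y ≠ 0) : coeffMap A.subtype Y ≠ 0 := by
  intro h0
  apply h
  have : Y = 0 := h19_coeffMap_subtype_injective A (by rw [h0, map_zero])
  rw [this, map_zero]

omit [NeZero N] [NeZero M] in
theorem h19_ord_pow {K F : Type*} [Field K] [Field F] [Algebra K F] (P : Place K F) (f : F)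
    (n : ℕ) : P.ord (f ^ n) = n * P.ord f := by
  have := P.ord_zpow f (n : ℤ)
  rwa [zpow_natCast] at this

variable {A N M}

omit [NeZero N] [NeZero M] in
/-- **Level descent of the Kummer statement.** -/
theorem h19_stKummer_of_level (ℓ : ℕ)
    (hNM : modularFunctionFieldBar N ≤ modularFunctionFieldBar M)
    (hint : letI := (IntermediateField.inclusion hNM).toRingHom.toAlgebra
      Algebra.IsIntegral (modularFunctionFieldBar N) (modularFunctionFieldBar M))
    (hk : modularFunctionFieldFullC (IsLocalRing.ResidueField A) N ≤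
      modularFunctionFieldFullC (IsLocalRing.ResidueField A) M)
    (hK : Asm.StKummer A M ℓ) (hDiv : Asm.StDiv M) (hC : StConst0 M)
    (hD : StDescInst A N M ℓ) : Asm.StKummer A N ℓ := by
  intro m hm Y₁ Y₂ h₁ h₂ hk₁ hred hne D hDm
  have hm0 : m ≠ 0 := by
    rintro rfl
    exact hm (dvd_zero ℓ)
  have hmZ : (m : ℤ) ≠ 0 := by exact_mod_cast hm0
  have hne₂ : coeffMap (IsLocalRing.residue A) Y₂ ≠ 0 := hred ▸ hne
  have hY₁ : coeffMap A.subtype Y₁ ≠ 0 := h19_ne_zero_of_residue_ne_zero A hne
  have hY₂ : coeffMap A.subtype Y₂ ≠ 0 := h19_ne_zero_of_residue_ne_zero A hne₂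
  letI alg : Algebra (modularFunctionFieldBar N) (modularFunctionFieldBar M) :=
    (IntermediateField.inclusion hNM).toRingHom.toAlgebra
  haveI : IsScalarTower (AlgebraicClosure ℚ) (modularFunctionFieldBar N)
      (modularFunctionFieldBar M) :=
    IsScalarTower.of_algebraMap_eq fun c => rfl
  haveI : Algebra.IsIntegral (modularFunctionFieldBar N) (modularFunctionFieldBar M) := hint
  -- the elements
  set y₁ : modularFunctionFieldBar N := ⟨coeffMap A.subtype Y₁, h₁⟩ with hy₁
  set y₂ : modularFunctionFieldBar N := ⟨coeffMap A.subtype Y₂, h₂⟩ with hy₂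
  set z₁ : modularFunctionFieldBar M := ⟨coeffMap A.subtype Y₁, hNM h₁⟩ with hz₁
  set z₂ : modularFunctionFieldBar M := ⟨coeffMap A.subtype Y₂, hNM h₂⟩ with hz₂
  have hy₁0 : y₁ ≠ 0 := fun h => hY₁ (congrArg Subtype.val h)
  have hy₂0 : y₂ ≠ 0 := fun h => hY₂ (congrArg Subtype.val h)
  have hz₁0 : z₁ ≠ 0 := fun h => hY₁ (congrArg Subtype.val h)
  have hz₂0 : z₂ ≠ 0 := fun h => hY₂ (congrArg Subtype.val h)
  have hmap₁ : algebraMap (modularFunctionFieldBar N) (modularFunctionFieldBar M) y₁ = z₁ := rfl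
  have hmap₂ : algebraMap (modularFunctionFieldBar N) (modularFunctionFieldBar M) y₂ = z₂ := rfl
  -- orders at level `M`
  have hord : ∀ Q : Place (AlgebraicClosure ℚ) (modularFunctionFieldBar M),
      Q.ord z₁ - Q.ord z₂ =
        (m : ℤ) * ((Place.ramificationIndex (F := modularFunctionFieldBar N) Q : ℤ) *
          D (Q.restrict (modularFunctionFieldBar N))) := by
    intro Q
    rw [← hmap₁, ← hmap₂, Q.ord_restrict y₁, Q.ord_restrict y₂, ← mul_sub,
      ← hDm (Q.restrict (modularFunctionFieldBar N))]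
    ring
  -- the divisor of `z₁ / z₂`
  obtain ⟨E, hE⟩ := hDiv (z₁ / z₂) (div_ne_zero hz₁0 hz₂0)
  have hE' : ∀ Q, E Q = Q.ord z₁ - Q.ord z₂ := by
    intro Q
    rw [hE Q, div_eq_mul_inv, Q.ord_mul hz₁0 (inv_ne_zero hz₂0), Q.ord_inv]
    ring
  set DM : Divisor (AlgebraicClosure ℚ) (modularFunctionFieldBar M) :=
    E.mapRange (fun z => z / (m : ℤ)) (Int.zero_ediv _) with hDM
  have hDM' : ∀ Q, (m : ℤ) * DM Q = Q.ord z₁ - Q.ord z₂ := by
    intro Q
    rw [hDM, Finsupp.mapRange_apply, hE' Q, hord Q, Int.mul_ediv_cancel_left _ hmZ]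
  -- apply the Kummer statement at level `M`
  obtain ⟨u, hu0, hu⟩ := hK m hm Y₁ Y₂ (hNM h₁) (hNM h₂) (hk hk₁) hred hne DM hDM'
  -- `u ^ m * z₂ / z₁` is a constant
  set g : modularFunctionFieldBar M := u ^ m * z₂ / z₁ with hg
  have hg0 : g ≠ 0 := div_ne_zero (mul_ne_zero (pow_ne_zero _ hu0) hz₂0) hz₁0
  have hgord : ∀ Q : Place (AlgebraicClosure ℚ) (modularFunctionFieldBar M), Q.ord g = 0 := by
    intro Q
    rw [hg, div_eq_mul_inv, Q.ord_mul (mul_ne_zero (pow_ne_zero _ hu0) hz₂0) (inv_ne_zero hz₁0),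
      Q.ord_mul (pow_ne_zero _ hu0) hz₂0, Q.ord_inv, h19_ord_pow, ← hu Q]
    have := hDM' Q
    linarith
  obtain ⟨c, hc⟩ := hC g hg0 hgord
  have hc0 : c ≠ 0 := by
    rintro rfl
    rw [map_zero] at hc
    exact hg0 hc.symm
  obtain ⟨c', hc'⟩ := IsAlgClosed.exists_pow_nat_eq c (Nat.pos_of_ne_zero hm0)
  have hc'0 : c' ≠ 0 := by
    rintro rfl
    rw [zero_pow hm0] at hc'
    exact hc0 hc'.symm
  set a : modularFunctionFieldBar M :=
    algebraMap (AlgebraicClosure ℚ) (modularFunctionFieldBar M) c' with ha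
  have ha0 : a ≠ 0 := by
    rw [ha]
    exact (map_ne_zero _).2 hc'0
  have ham : a ^ m = g := by rw [ha, ← map_pow, hc', hc]
  set u' : modularFunctionFieldBar M := u / a with hu'
  have hu'0 : u' ≠ 0 := div_ne_zero hu0 ha0
  have hrel : u' ^ m * z₂ = z₁ := by
    rw [hu', div_pow, ham, hg]
    field_simp
  have hrel' : (u' : LaurentSeries (AlgebraicClosure ℚ)) ^ m * coeffMap A.subtype Y₂ =
      coeffMap A.subtype Y₁ := by
    have := congrArg Subtype.val hrel
    simpa using this
  have hmem : (u' : LaurentSeries (AlgebraicClosure ℚ)) ∈ modularFunctionFieldBar N :=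
    hD m hm Y₁ Y₂ h₁ h₂ hred hne (u' : LaurentSeries (AlgebraicClosure ℚ)) u'.2 hrel'
  -- conclude at level `N`
  set w : modularFunctionFieldBar N := ⟨(u' : LaurentSeries (AlgebraicClosure ℚ)), hmem⟩ with hw
  have hw0 : w ≠ 0 := by
    intro h
    apply hu'0
    apply Subtype.ext
    have h' : (w : LaurentSeries (AlgebraicClosure ℚ)) = 0 := by rw [h]; rfl
    exact h'
  have hwrel : w ^ m * y₂ = y₁ := by
    apply Subtype.ext
    simpa using hrel'
  refine ⟨w, hw0, fun P => ?_⟩
  have h1 : P.ord y₁ = (m : ℤ) * P.ord w + P.ord y₂ := by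
    rw [← hwrel, P.ord_mul (pow_ne_zero _ hw0) hy₂0, h19_ord_pow]
  have h2 := hDm P
  have h3 : (m : ℤ) * D P = (m : ℤ) * P.ord w := by
    rw [h2, h1]; ring
  exact mul_left_cancel₀ hmZ h3

end Fermat.Agent.S18x.Desc.H19
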