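import Fermat.Agent.S18x.Desc.H19_Family

/-!
# S18, package DESC (helper19): (DESC) for a valuation subring with a reduction map

`Vs : ValuationSubring E`, `ρ : Vs →+* k'` a ring homomorphism to a field such that every element
with non-zero reduction is a unit of `Vs` (so `ker ρ` is the maximal ideal). If the residue degree
over a subfield `F` equals `[E : F]`, then `m`-th roots descend.

Mathlib only.
-/

set_option autoImplicit false

namespace Fermat.Agent.S18x.Desc.H19

variable {E k' : Type*} [Field E] [Field k']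

/-- `ρ x = 0 ↔ v x < 1`. -/
theorem h19_red_eq_zero_iff (Vs : ValuationSubring E) (ρ : Vs →+* k')
    (hinv : ∀ x : Vs, ρ x ≠ 0 → (x : E)⁻¹ ∈ Vs) (x : Vs) :
    ρ x = 0 ↔ Vs.valuation (x : E) < 1 := by
  constructor
  · intro h0
    rcases Vs.valuation_lt_one_or_eq_one x with h | h
    · exact h
    · exfalso
      have hu : IsUnit x := (Vs.valuation_eq_one_iff x).2 h
      obtain ⟨y, hy⟩ := isUnit_iff_exists_inv.1 hu
      have := congrArg ρ hy
      rw [map_mul, h0, zero_mul, map_one] at this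
      exact zero_ne_one this
  · intro hlt
    by_contra hne
    have hmem := hinv x hne
    have h1 : Vs.valuation ((x : E)⁻¹) ≤ 1 := (Vs.valuation_le_one_iff _).2 hmem
    have hx0 : (x : E) ≠ 0 := by
      intro h
      apply hne
      have : x = 0 := Subtype.ext h
      rw [this, map_zero]
    have hv0 : Vs.valuation (x : E) ≠ 0 := (Valuation.ne_zero_iff _).2 hx0
    rw [map_inv₀, inv_le_one₀ (zero_lt_iff.2 hv0)] at h1
    exact absurd hlt (not_lt.2 h1)

/-- **(DESC) for a valuation subring with a reduction map.** -/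
theorem h19_desc_valuationSubring (Vs : ValuationSubring E) (ρ : Vs →+* k')
    (hinv : ∀ x : Vs, ρ x ≠ 0 → (x : E)⁻¹ ∈ Vs)
    (F : Subfield E)
    (κ : Subfield k') (hκ : ∀ x : Vs, (x : E) ∈ F → ρ x ∈ κ)
    (W : Submodule (↥κ) k') (hW1 : (1 : k') ∈ W) (hWred : ∀ w ∈ W, ∃ x : Vs, ρ x = w)
    (hdim : Module.finrank (↥κ) (↥W) = Module.finrank (↥F) E)
    (hpos : 0 < Module.finrank (↥F) E)
    (m : ℕ) (hm : ((m : E))⁻¹ ∈ Vs) (hm0 : (m : E) ≠ 0)
    (u : E) (hu : u ^ m ∈ F) (b₀ : Vs) (hb₀F : (b₀ : E) ∈ F) (hb₀ : ρ b₀ ≠ 0)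
    (d : Vs) (hd : (d : E) = u - b₀) (hd0 : ρ d = 0) : u ∈ F := by
  set v := Vs.valuation with hv
  have hle : ∀ x : E, v x ≤ 1 ↔ x ∈ Vs := fun x => Vs.valuation_le_one_iff x
  -- the reduction on `v.integer`
  have hsub : v.integer ≤ Vs.toSubring := fun x hx => (hle x).1 hx
  let red : v.integer →+* k' := ρ.comp (Subring.inclusion hsub)
  have hker : ∀ x : v.integer, red x = 0 ↔ v (x : E) < 1 := by
    intro x
    exact h19_red_eq_zero_iff Vs ρ hinv ⟨(x : E), hsub x.2⟩
  have hκ' : ∀ x : v.integer, (x : E) ∈ F → red x ∈ κ := fun x hx =>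
    hκ ⟨(x : E), hsub x.2⟩ hx
  have hWred' : ∀ w ∈ W, ∃ x : v.integer, red x = w := by
    intro w hw
    obtain ⟨x, hx⟩ := hWred w hw
    exact ⟨⟨(x : E), (hle _).2 x.2⟩, hx⟩
  have hvm : v (m : E) = 1 := by
    have h1 : v (m : E) ≤ 1 := (hle _).2 (natCast_mem Vs m)
    have h2 : v ((m : E)⁻¹) ≤ 1 := (hle _).2 hm
    have hv0 : v (m : E) ≠ 0 := (Valuation.ne_zero_iff _).2 hm0
    rw [map_inv₀, inv_le_one₀ (zero_lt_iff.2 hv0)] at h2
    exact le_antisymm h1 h2
  have hvb : v (b₀ : E) = 1 := by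
    rcases Vs.valuation_lt_one_or_eq_one b₀ with h | h
    · exact absurd ((h19_red_eq_zero_iff Vs ρ hinv b₀).2 h) hb₀
    · exact h
  have hvd : v (u - b₀) < 1 := by
    rw [← hd]
    exact (h19_red_eq_zero_iff Vs ρ hinv d).1 hd0
  exact h19_desc_of_residue_degree v F red hker κ hκ' W hW1 hWred' hdim hpos m hvm u hu
    (b₀ : E) hb₀F hvb hvd

end Fermat.Agent.S18x.Desc.H19
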